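import Fermat.Agent.S48.Defs
import Fermat.Prelude.Def_FLTPrelim_Modularity

/-!
# S48 / block (4) : Rankin's estimate, elementary form.

`f` a cusp form of weight `1` (weight `k` for the first half), `a n = qCoeff f n`.
* `bessel_fourier`     : Bessel's inequality for an absolutely convergent Fourier series.
* `sum_sq_mul_exp_le`  : `∑ ‖a n‖² exp (-4π n y) ≤ C² / y ^ k`.
* `sum_sq_le`          : `∑_{n ≤ M} ‖a n‖² ≤ D (M+1)^k`.
* `sum_mul_rpow_le`    : Abel summation: `∑_{n ∈ A} b n n^{-s} ≤ 2 D (1 + 1/(s-1))`.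
* `prod_one_add_le`    : `∏_{p ∈ T} (1 + ‖a p‖² p^{-s}) ≤ 2 D (1 + 1/(s-1))`.
* `sum_le_log`, `rankin` : `∑_{p ∈ T} t p p^{-s} ≤ log (1/(s-1)) + C + 2 K²` for `0 ≤ t p ≤ min (‖a p‖², K)`.
No Ramanujan bound, no Rankin-Selberg continuation.
-/

set_option autoImplicit false

namespace Fermat.Agent.S48.Rankin

open Complex MeasureTheory Real ModularFormClass
open UpperHalfPlane hiding I

open scoped InnerProductSpace ENNReal MatrixGroups

/-- **Bessel's inequality** for an absolutely convergent Fourier series bounded by `B`. -/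
theorem bessel_fourier (c : ℕ → ℂ) (hc : Summable (fun n => ‖c n‖)) (B : ℝ)
    (hB : ∀ x : ℝ, ‖∑' n, c n * Complex.exp (2 * π * I * n * x)‖ ≤ B) (s : Finset ℕ) :
    ∑ n ∈ s, ‖c n‖ ^ 2 ≤ B ^ 2 := by
  have hB0 : 0 ≤ B := (norm_nonneg _).trans (hB 0)
  let F : ℕ → C(AddCircle (1 : ℝ), ℂ) := fun n => c n • fourier (n : ℤ)
  have hFn : ∀ n, ‖F n‖ = ‖c n‖ := fun n => by
    simp only [F, norm_smul, fourier_norm, mul_one]
  have hFs : Summable F := Summable.of_norm (by simpa only [hFn] using hc)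
  obtain ⟨g, hg⟩ := hFs
  have hgx : ∀ x : ℝ, g (x : AddCircle (1 : ℝ)) = ∑' n, c n * Complex.exp (2 * π * I * n * x) := by
    intro x
    have h1 := ContinuousMap.hasSum_apply hg (x : AddCircle (1 : ℝ))
    rw [← h1.tsum_eq]
    refine tsum_congr fun n => ?_
    simp only [F, ContinuousMap.smul_apply, fourier_coe_apply, smul_eq_mul]
    congr 2
    push_cast
    ring
  have hgB : ‖g‖ ≤ B := by
    rw [ContinuousMap.norm_le _ hB0]
    intro x
    induction x using QuotientAddGroup.induction_on with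
    | H x => rw [hgx]; exact hB x
  let TL := ContinuousMap.toLp (E := ℂ) 2 (@AddCircle.haarAddCircle (1 : ℝ) _) ℂ
  let G := TL g
  have hG : ‖G‖ ≤ B := by
    have h1 : ‖G‖ ≤ ‖TL‖ * ‖g‖ := TL.le_opNorm g
    have h2 : ‖TL‖ ≤ 1 := by
      have := ContinuousMap.toLp_norm_le (E := ℂ) (p := 2) (μ := @AddCircle.haarAddCircle (1 : ℝ) _)
        (𝕜 := ℂ)
      simpa [measureUnivNNReal] using this
    calc ‖G‖ ≤ ‖TL‖ * ‖g‖ := h1
      _ ≤ 1 * B := by gcongr
      _ = B := one_mul B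
  have hinner : ∀ m : ℕ, ⟪(fourierLp (T := (1 : ℝ)) 2 (m : ℤ)), G⟫_ℂ = c m := by
    intro m
    have h1 : HasSum (fun n => TL (F n)) G := TL.hasSum hg
    have h2 := (innerSL ℂ (fourierLp (T := (1 : ℝ)) 2 (m : ℤ))).hasSum h1
    have h3 : ∀ n, (innerSL ℂ (fourierLp (T := (1 : ℝ)) 2 (m : ℤ))) (TL (F n))
        = if n = m then c n else 0 := by
      intro n
      have : TL (F n) = c n • fourierLp (T := (1 : ℝ)) 2 (n : ℤ) := by
        simp only [F, map_smul]; rfl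
      rw [this, innerSL_apply_apply, inner_smul_right, orthonormal_iff_ite.1 orthonormal_fourier]
      by_cases h : n = m
      · subst h; simp
      · have : ¬ ((m : ℤ) = n) := fun h' => h (by exact_mod_cast h'.symm)
        simp [h, this]
    simp only [h3] at h2
    have h4 : HasSum (fun n => if n = m then c n else 0) (c m) := by
      have e : (fun n => if n = m then c n else 0) = fun n => if n = m then c m else 0 := by
        funext n
        split_ifs with h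
        · rw [h]
        · rfl
      rw [e]
      exact hasSum_ite_eq m (c m)
    exact h2.unique h4
  have hon : Orthonormal ℂ (fun n : ℕ => fourierLp (T := (1 : ℝ)) 2 (n : ℤ)) :=
    orthonormal_fourier.comp _ Nat.cast_injective
  have := hon.sum_inner_products_le (x := G) (s := s)
  simp only [hinner] at this
  calc ∑ n ∈ s, ‖c n‖ ^ 2 ≤ ‖G‖ ^ 2 := this
    _ ≤ B ^ 2 := by gcongr

section cusp

variable {Γ : Subgroup (GL (Fin 2) ℝ)} [Γ.IsArithmetic] {k : ℤ} {F : Type*} [FunLike F ℍ ℂ]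

theorem hasSum_qCoeff' [CuspFormClass F Γ k] (f : F) (hΓ : (1 : ℝ) ∈ Γ.strictPeriods) (τ : ℍ) :
    HasSum (fun m ↦ qCoeff f m * Function.Periodic.qParam 1 τ ^ m) (f τ) :=
  hasSum_qExpansion one_pos (SlashInvariantFormClass.periodic_comp_ofComplex (k := k) f hΓ)
    (holo (k := k) (Γ := Γ) f) (bdd_at_infty (k := k) (Γ := Γ) f) τ

variable [CuspFormClass F Γ k]

/-- Parseval/Bessel on the horizontal line of height `y`. -/
theorem sum_sq_mul_exp_le (f : F) (hΓ : (1 : ℝ) ∈ Γ.strictPeriods) :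
    ∃ C : ℝ, ∀ y : ℝ, 0 < y → ∀ s : Finset ℕ,
      ∑ n ∈ s, ‖qCoeff f n‖ ^ 2 * Real.exp (-(4 * π * n * y)) ≤ C ^ 2 / y ^ k := by
  obtain ⟨C, hC⟩ := CuspFormClass.exists_bound (Γ := Γ) (k := k) f
  refine ⟨C, fun y hy s => ?_⟩
  let c : ℕ → ℂ := fun n => qCoeff f n * Complex.exp (-(2 * π * n * y))
  have key : ∀ (x : ℝ) (n : ℕ), c n * Complex.exp (2 * π * I * n * x)
      = qCoeff f n * Function.Periodic.qParam 1 ((x : ℂ) + y * I) ^ n := by
    intro x n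
    simp only [c, Function.Periodic.qParam]
    rw [mul_assoc, ← Complex.exp_add, ← Complex.exp_nat_mul]
    congr 2
    have : I * I = -1 := I_mul_I
    push_cast
    linear_combination (-(2 * π * n * y) : ℂ) * this
  have hτ : ∀ x : ℝ, 0 < ((x : ℂ) + y * I).im := fun x => by simpa using hy
  have hsum : ∀ x : ℝ, HasSum (fun n => c n * Complex.exp (2 * π * I * n * x))
      (f ⟨(x : ℂ) + y * I, hτ x⟩) := by
    intro x
    simp only [key]
    exact hasSum_qCoeff' (k := k) f hΓ ⟨(x : ℂ) + y * I, hτ x⟩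
  have hc : Summable (fun n => ‖c n‖) := by
    have := (hsum 0).summable.norm
    simpa using this
  have hB : ∀ x : ℝ, ‖∑' n, c n * Complex.exp (2 * π * I * n * x)‖ ≤ C / y ^ ((k : ℝ) / 2) := by
    intro x
    rw [(hsum x).tsum_eq]
    have := hC ⟨(x : ℂ) + y * I, hτ x⟩
    simpa [UpperHalfPlane.im] using this
  have := bessel_fourier c hc _ hB s
  have e1 : ∀ n, ‖c n‖ ^ 2 = ‖qCoeff f n‖ ^ 2 * Real.exp (-(4 * π * n * y)) := by
    intro n
    simp only [c, norm_mul, mul_pow, Complex.norm_exp]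
    rw [← Real.exp_nat_mul]
    congr 2
    simp
    ring
  have e2 : (C / y ^ ((k : ℝ) / 2)) ^ 2 = C ^ 2 / y ^ k := by
    rw [div_pow, ← Real.rpow_natCast (y ^ ((k : ℝ) / 2)) 2, ← Real.rpow_mul hy.le]
    congr 1
    rw [← Real.rpow_intCast]
    congr 1
    push_cast; ring
  simp only [e1, e2] at this
  exact this

/-- mean square bound for the coefficients of a cusp form. -/
theorem sum_sq_le (f : F) (hΓ : (1 : ℝ) ∈ Γ.strictPeriods) :
    ∃ D : ℝ, 0 ≤ D ∧ ∀ M : ℕ, ∑ n ∈ Finset.range (M + 1), ‖qCoeff f n‖ ^ 2 ≤ D * ((M : ℝ) + 1) ^ k := by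
  obtain ⟨C, hC⟩ := sum_sq_mul_exp_le (k := k) f hΓ
  refine ⟨Real.exp (4 * π) * C ^ 2, by positivity, fun M => ?_⟩
  have hM : (0 : ℝ) < (M : ℝ) + 1 := by positivity
  have h1 := hC (1 / ((M : ℝ) + 1)) (by positivity) (Finset.range (M + 1))
  have h2 : ∀ n ∈ Finset.range (M + 1), ‖qCoeff f n‖ ^ 2 * Real.exp (-(4 * π))
      ≤ ‖qCoeff f n‖ ^ 2 * Real.exp (-(4 * π * n * (1 / ((M : ℝ) + 1)))) := by
    intro n hn
    have hn' : (n : ℝ) ≤ (M : ℝ) + 1 := by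
      have := Finset.mem_range.1 hn
      exact_mod_cast this.le
    apply mul_le_mul_of_nonneg_left _ (by positivity)
    apply Real.exp_le_exp.2
    apply neg_le_neg
    rw [mul_one_div, mul_div_assoc]
    have : (n : ℝ) / ((M : ℝ) + 1) ≤ 1 := (div_le_one hM).2 hn'
    nlinarith [Real.pi_pos]
  have h3 := (Finset.sum_le_sum h2).trans h1
  rw [← Finset.sum_mul] at h3
  have h4 : C ^ 2 / (1 / ((M : ℝ) + 1)) ^ k = C ^ 2 * ((M : ℝ) + 1) ^ k := by
    rw [one_div, inv_zpow, div_inv_eq_mul]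
  rw [h4, Real.exp_neg, ← div_eq_mul_inv, div_le_iff₀ (Real.exp_pos _)] at h3
  linarith

end cusp

/-- Abel's inequality: nonnegative partial sums against an antitone nonnegative weight. -/
theorem sum_mul_nonneg_of_antitone (c w : ℕ → ℝ) (hc : ∀ m, 0 ≤ ∑ j ∈ Finset.range m, c j)
    (hw : Antitone w) (m : ℕ) :
    (∑ j ∈ Finset.range m, c j) * w m ≤ ∑ j ∈ Finset.range m, c j * w j := by
  induction m with
  | zero => simp
  | succ m ih =>
    rw [Finset.sum_range_succ, Finset.sum_range_succ]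
    have h1 : (∑ j ∈ Finset.range m, c j + c m) * w (m + 1)
        ≤ (∑ j ∈ Finset.range m, c j + c m) * w m := by
      apply mul_le_mul_of_nonneg_left (hw (Nat.le_succ m))
      have := hc (m + 1)
      rwa [Finset.sum_range_succ] at this
    linarith

/-- `∑_{1 ≤ n ≤ m} n^{-s} ≤ 1 + 1/(s-1)`. -/
theorem sum_rpow_neg_le {s : ℝ} (hs : 1 < s) (m : ℕ) :
    ∑ j ∈ Finset.range m, ((j : ℝ) + 1) ^ (-s) ≤ 1 + 1 / (s - 1) := by
  cases m with
  | zero => simp; have : 0 < s - 1 := by linarith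
            positivity
  | succ m =>
    rw [Finset.sum_range_succ']
    have hanti : AntitoneOn (fun x : ℝ => x ^ (-s)) (Set.Icc (1 : ℝ) (1 + (m : ℕ))) := by
      intro a ha b hb hab
      exact Real.rpow_le_rpow_of_nonpos (by linarith [ha.1]) hab (by linarith)
    have h1 := AntitoneOn.sum_le_integral (f := fun x : ℝ => x ^ (-s)) (x₀ := 1) (a := m) hanti
    have h2 : ∫ x in (1 : ℝ)..(1 + (m : ℕ)), x ^ (-s)
        = ((1 + (m : ℝ)) ^ (-s + 1) - 1 ^ (-s + 1)) / (-s + 1) := by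
      apply integral_rpow
      right
      refine ⟨by linarith, ?_⟩
      rw [Set.uIcc_of_le (by simp)]
      intro h0
      linarith [h0.1]
    rw [h2] at h1
    have h3 : ((1 + (m : ℝ)) ^ (-s + 1) - 1 ^ (-s + 1)) / (-s + 1) ≤ 1 / (s - 1) := by
      have hpos : 0 ≤ (1 + (m : ℝ)) ^ (-s + 1) := by positivity
      have e : ((1 + (m : ℝ)) ^ (-s + 1) - 1 ^ (-s + 1)) / (-s + 1)
          = (1 - (1 + (m : ℝ)) ^ (-s + 1)) / (s - 1) := by
        rw [Real.one_rpow, ← neg_div_neg_eq]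
        congr 1 <;> ring
      rw [e]
      apply div_le_div_of_nonneg_right _ (by linarith)
      linarith
    have h4 : ∑ j ∈ Finset.range m, (((j + 1 : ℕ) : ℝ) + 1) ^ (-s)
        = ∑ i ∈ Finset.range m, ((1 : ℝ) + ((i + 1 : ℕ) : ℝ)) ^ (-s) :=
      Finset.sum_congr rfl fun i _ => by rw [add_comm]
    rw [h4]
    simp only [Nat.cast_zero, zero_add, Real.one_rpow]
    linarith

/-- Dirichlet series with coefficients bounded on average. -/
theorem sum_mul_rpow_le (b : ℕ → ℝ) (hb : ∀ n, 0 ≤ b n) (D : ℝ) (hD : 0 ≤ D)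
    (hbD : ∀ M : ℕ, ∑ n ∈ Finset.range (M + 1), b n ≤ D * ((M : ℝ) + 1)) {s : ℝ} (hs : 1 < s)
    (A : Finset ℕ) : ∑ n ∈ A, b n * (n : ℝ) ^ (-s) ≤ 2 * D * (1 + 1 / (s - 1)) := by
  obtain ⟨m, hm⟩ : ∃ m, A ⊆ Finset.range (m + 1) :=
    ⟨A.sup id, fun n hn => Finset.mem_range.2 (Nat.lt_succ_of_le (Finset.le_sup (f := id) hn))⟩
  have h0 : ∑ n ∈ A, b n * (n : ℝ) ^ (-s) ≤ ∑ n ∈ Finset.range (m + 1), b n * (n : ℝ) ^ (-s) :=
    Finset.sum_le_sum_of_subset_of_nonneg hm fun n _ _ =>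
      mul_nonneg (hb n) (Real.rpow_nonneg (Nat.cast_nonneg n) _)
  refine h0.trans ?_
  rw [Finset.sum_range_succ', Nat.cast_zero, Real.zero_rpow (by linarith), mul_zero, add_zero]
  let w : ℕ → ℝ := fun j => ((j : ℝ) + 1) ^ (-s)
  have hw : Antitone w := by
    intro i j hij
    apply Real.rpow_le_rpow_of_nonpos (by positivity) _ (by linarith)
    have : (i : ℝ) ≤ j := by exact_mod_cast hij
    linarith
  have hw0 : ∀ j, 0 ≤ w j := fun j => by positivity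
  let c : ℕ → ℝ := fun j => 2 * D - b (j + 1)
  have hc : ∀ r, 0 ≤ ∑ j ∈ Finset.range r, c j := by
    intro r
    simp only [c, Finset.sum_sub_distrib, Finset.sum_const, Finset.card_range, nsmul_eq_mul]
    have h1 := hbD r
    rw [Finset.sum_range_succ'] at h1
    have h2 := hb 0
    cases r with
    | zero => simp
    | succ r =>
      have : (1 : ℝ) ≤ ((r + 1 : ℕ) : ℝ) := by push_cast; linarith [Nat.cast_nonneg (α := ℝ) r]
      nlinarith
  have h1 := sum_mul_nonneg_of_antitone c w hc hw m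
  have h2 : 0 ≤ ∑ j ∈ Finset.range m, c j * w j := (mul_nonneg (hc m) (hw0 m)).trans h1
  simp only [c, sub_mul, Finset.sum_sub_distrib, ← Finset.mul_sum] at h2
  have h3 := sum_rpow_neg_le hs m
  have h4 : ∑ j ∈ Finset.range m, b (j + 1) * ((j + 1 : ℕ) : ℝ) ^ (-s)
      = ∑ j ∈ Finset.range m, b (j + 1) * w j :=
    Finset.sum_congr rfl fun j _ => by simp only [w]; push_cast; rfl
  rw [h4]
  have h5 : 2 * D * ∑ j ∈ Finset.range m, w j ≤ 2 * D * (1 + 1 / (s - 1)) :=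
    mul_le_mul_of_nonneg_left h3 (by positivity)
  linarith

/-- multiplicativity on squarefree products of good primes -/
theorem apply_prod_primes (a : ℕ → ℂ) (ha1 : a 1 = 1) (good : ℕ → Prop)
    (hmul : ∀ p n : ℕ, p.Prime → good p → ¬ p ∣ n → a (p * n) = a p * a n)
    (U : Finset ℕ) (hU : ∀ p ∈ U, p.Prime ∧ good p) : a (∏ p ∈ U, p) = ∏ p ∈ U, a p := by
  induction U using Finset.induction_on with
  | empty => simpa using ha1
  | insert p U hp ih =>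
    rw [Finset.prod_insert hp, Finset.prod_insert hp]
    have hpp := hU p (Finset.mem_insert_self p U)
    have hU' : ∀ q ∈ U, q.Prime ∧ good q := fun q hq => hU q (Finset.mem_insert_of_mem hq)
    rw [hmul p _ hpp.1 hpp.2, ih hU']
    intro hdvd
    obtain ⟨q, hq, hpq⟩ := (Prime.dvd_finsetProd_iff hpp.1.prime _).1 hdvd
    have := (Nat.prime_dvd_prime_iff_eq hpp.1 (hU' q hq).1).1 hpq
    exact hp (this ▸ hq)

/-- the Euler product over finitely many good primes is bounded by the Dirichlet series. -/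
theorem prod_one_add_le (a : ℕ → ℂ) (ha1 : a 1 = 1) (good : ℕ → Prop)
    (hmul : ∀ p n : ℕ, p.Prime → good p → ¬ p ∣ n → a (p * n) = a p * a n)
    (D : ℝ) (hD : 0 ≤ D)
    (haD : ∀ M : ℕ, ∑ n ∈ Finset.range (M + 1), ‖a n‖ ^ 2 ≤ D * ((M : ℝ) + 1)) {s : ℝ} (hs : 1 < s)
    (T : Finset ℕ) (hT : ∀ p ∈ T, p.Prime ∧ good p) :
    ∏ p ∈ T, (1 + ‖a p‖ ^ 2 * (p : ℝ) ^ (-s)) ≤ 2 * D * (1 + 1 / (s - 1)) := by
  classical
  rw [Finset.prod_one_add]
  have h1 : ∀ U ∈ T.powerset, ∏ p ∈ U, (‖a p‖ ^ 2 * (p : ℝ) ^ (-s))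
      = ‖a (∏ p ∈ U, p)‖ ^ 2 * ((∏ p ∈ U, p : ℕ) : ℝ) ^ (-s) := by
    intro U hU
    have hU' : ∀ p ∈ U, p.Prime ∧ good p := fun p hp => hT p (Finset.mem_powerset.1 hU hp)
    rw [apply_prod_primes a ha1 good hmul U hU', Finset.prod_mul_distrib, norm_prod,
      Finset.prod_pow, Nat.cast_prod, Real.finsetProd_rpow _ _ (fun p _ => Nat.cast_nonneg p)]
  rw [Finset.sum_congr rfl h1]
  have hinj : Set.InjOn (fun U : Finset ℕ => ∏ p ∈ U, p) (T.powerset : Set (Finset ℕ)) := by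
    intro U hU V hV hUV
    have hU' : ∀ p ∈ U, p.Prime := fun p hp => (hT p (Finset.mem_powerset.1 hU hp)).1
    have hV' : ∀ p ∈ V, p.Prime := fun p hp => (hT p (Finset.mem_powerset.1 hV hp)).1
    rw [← Nat.primeFactors_prod hU', ← Nat.primeFactors_prod hV']
    exact congrArg Nat.primeFactors hUV
  rw [← Finset.sum_image (f := fun n : ℕ => ‖a n‖ ^ 2 * (n : ℝ) ^ (-s)) hinj]
  exact sum_mul_rpow_le (fun n => ‖a n‖ ^ 2) (fun n => by positivity) D hD haD hs _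

theorem sub_sq_half_le_log {y : ℝ} (hy : 0 ≤ y) : y - y ^ 2 / 2 ≤ Real.log (1 + y) := by
  refine le_trans ?_ (Real.le_log_one_add_of_nonneg hy)
  rw [le_div_iff₀ (by linarith)]
  nlinarith [pow_nonneg hy 3]

theorem sum_rpow_neg_two_le (T : Finset ℕ) : ∑ p ∈ T, ((p : ℝ) ^ (-(2 : ℝ))) ≤ 4 := by
  have := sum_mul_rpow_le (fun _ => 1) (fun _ => zero_le_one) 1 zero_le_one
    (fun M => by simp) (s := 2) (by norm_num) T
  norm_num at this
  norm_num
  linarith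

/-- **Rankin's estimate**, in the form used by Deligne-Serre: for weights `0 ≤ t p ≤ ‖a p‖²`,
`t p ≤ K`. -/
theorem sum_le_log (a : ℕ → ℂ) (ha1 : a 1 = 1) (good : ℕ → Prop)
    (hmul : ∀ p n : ℕ, p.Prime → good p → ¬ p ∣ n → a (p * n) = a p * a n)
    (D : ℝ) (hD : 0 < D)
    (haD : ∀ M : ℕ, ∑ n ∈ Finset.range (M + 1), ‖a n‖ ^ 2 ≤ D * ((M : ℝ) + 1)) {s : ℝ} (hs : 1 < s)
    (hs2 : s ≤ 2) (T : Finset ℕ) (hT : ∀ p ∈ T, p.Prime ∧ good p) (t : ℕ → ℝ) (K : ℝ)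
    (ht0 : ∀ p ∈ T, 0 ≤ t p) (hta : ∀ p ∈ T, t p ≤ ‖a p‖ ^ 2) (htK : ∀ p ∈ T, t p ≤ K) :
    ∑ p ∈ T, t p * (p : ℝ) ^ (-s) ≤ Real.log (1 / (s - 1)) + (Real.log (4 * D) + 2 * K ^ 2) := by
  have hs1 : 0 < s - 1 := by linarith
  have hP := prod_one_add_le a ha1 good hmul D hD.le haD hs T hT
  have hpos : ∀ p ∈ T, 0 < 1 + ‖a p‖ ^ 2 * (p : ℝ) ^ (-s) := fun p _ => by positivity
  have hP0 : 0 < ∏ p ∈ T, (1 + ‖a p‖ ^ 2 * (p : ℝ) ^ (-s)) := Finset.prod_pos hpos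
  have h1 : 1 ≤ 1 / (s - 1) := by
    rw [le_div_iff₀ hs1]; linarith
  have hP' : ∏ p ∈ T, (1 + ‖a p‖ ^ 2 * (p : ℝ) ^ (-s)) ≤ 4 * D * (1 / (s - 1)) := by
    refine hP.trans ?_
    nlinarith
  have hlog := Real.log_le_log hP0 hP'
  rw [Real.log_prod (fun p hp => (hpos p hp).ne'),
    Real.log_mul (by positivity) (by positivity)] at hlog
  have hterm : ∀ p ∈ T, t p * (p : ℝ) ^ (-s) - K ^ 2 / 2 * (p : ℝ) ^ (-(2 : ℝ))
      ≤ Real.log (1 + ‖a p‖ ^ 2 * (p : ℝ) ^ (-s)) := by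
    intro p hp
    have hp1 : (1 : ℝ) ≤ p := by exact_mod_cast (hT p hp).1.one_le
    have hw0 : 0 ≤ (p : ℝ) ^ (-s) := by positivity
    have hy0 : 0 ≤ t p * (p : ℝ) ^ (-s) := mul_nonneg (ht0 p hp) hw0
    have e1 := sub_sq_half_le_log hy0
    have e2 : Real.log (1 + t p * (p : ℝ) ^ (-s)) ≤ Real.log (1 + ‖a p‖ ^ 2 * (p : ℝ) ^ (-s)) := by
      apply Real.log_le_log (by positivity)
      have := mul_le_mul_of_nonneg_right (hta p hp) hw0
      linarith
    have e3 : ((p : ℝ) ^ (-s)) ^ 2 ≤ (p : ℝ) ^ (-(2 : ℝ)) := by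
      rw [← Real.rpow_natCast, ← Real.rpow_mul (by positivity)]
      apply Real.rpow_le_rpow_of_exponent_le hp1
      push_cast; linarith
    have e4 : (t p) ^ 2 ≤ K ^ 2 := pow_le_pow_left₀ (ht0 p hp) (htK p hp) 2
    have e5 : (t p * (p : ℝ) ^ (-s)) ^ 2 ≤ K ^ 2 * (p : ℝ) ^ (-(2 : ℝ)) := by
      rw [mul_pow]
      exact mul_le_mul e4 e3 (by positivity) (by positivity)
    linarith
  have hsum := Finset.sum_le_sum hterm
  rw [Finset.sum_sub_distrib, ← Finset.mul_sum] at hsum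
  have h4 := sum_rpow_neg_two_le T
  have h5 : K ^ 2 / 2 * ∑ p ∈ T, ((p : ℝ) ^ (-(2 : ℝ))) ≤ K ^ 2 / 2 * 4 :=
    mul_le_mul_of_nonneg_left h4 (by positivity)
  linarith

section final

open CongruenceSubgroup

/-- **Rankin's estimate** for a weight one cusp form whose coefficients are multiplicative at the
good primes (abstract form). -/
theorem rankin_of_mul {Γ : Subgroup (GL (Fin 2) ℝ)} [Γ.IsArithmetic] {F : Type*} [FunLike F ℍ ℂ]
    [CuspFormClass F Γ 1] (f : F) (hΓ : (1 : ℝ) ∈ Γ.strictPeriods) (hf₁ : qCoeff f 1 = 1)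
    (good : ℕ → Prop)
    (hmul : ∀ p n : ℕ, p.Prime → good p → ¬ p ∣ n → qCoeff f (p * n) = qCoeff f p * qCoeff f n) :
    ∃ C : ℝ, ∀ K s : ℝ, 1 < s → s ≤ 2 → ∀ T : Finset ℕ, (∀ p ∈ T, p.Prime ∧ good p) →
      ∀ t : ℕ → ℝ, (∀ p ∈ T, 0 ≤ t p) → (∀ p ∈ T, t p ≤ ‖qCoeff f p‖ ^ 2) → (∀ p ∈ T, t p ≤ K) →
        ∑ p ∈ T, t p * (p : ℝ) ^ (-s) ≤ Real.log (1 / (s - 1)) + (C + 2 * K ^ 2) := by
  obtain ⟨D, hD, hDM⟩ := sum_sq_le (k := 1) f hΓ
  have hDM' : ∀ M : ℕ, ∑ n ∈ Finset.range (M + 1), ‖qCoeff f n‖ ^ 2 ≤ (D + 1) * ((M : ℝ) + 1) := by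
    intro M
    have := hDM M
    rw [zpow_one] at this
    have h0 : (0 : ℝ) ≤ (M : ℝ) + 1 := by positivity
    nlinarith
  exact ⟨Real.log (4 * (D + 1)), fun K s hs hs2 T hT t ht0 hta htK =>
    sum_le_log (fun n => qCoeff f n) hf₁ good hmul (D + 1) (by linarith) hDM' hs hs2 T hT t K
      ht0 hta htK⟩

/-- **Rankin's estimate** under the hypotheses of S48. -/
theorem rankin_trunc (N : ℕ) [NeZero N] (ε : DirichletCharacter ℂ N) (f : CuspForm (Gamma1 N) 1)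
    (hf₁ : qCoeff f 1 = 1)
    (hT : ∀ p : ℕ, p.Prime → ¬ p ∣ N → ∀ n : ℕ,
        qCoeff f (p * n) + ε (p : ZMod N) * (if p ∣ n then qCoeff f (n / p) else 0) =
          qCoeff f p * qCoeff f n) :
    ∃ C : ℝ, ∀ K s : ℝ, 1 < s → s ≤ 2 → ∀ T : Finset ℕ, (∀ p ∈ T, p.Prime ∧ ¬ p ∣ N) →
      ∀ t : ℕ → ℝ, (∀ p ∈ T, 0 ≤ t p) → (∀ p ∈ T, t p ≤ ‖qCoeff f p‖ ^ 2) → (∀ p ∈ T, t p ≤ K) →
        ∑ p ∈ T, t p * (p : ℝ) ^ (-s) ≤ Real.log (1 / (s - 1)) + (C + 2 * K ^ 2) := by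
  refine rankin_of_mul f (by simp [strictPeriods_Gamma1]) hf₁ (fun p => ¬ p ∣ N) ?_
  intro p n hp hpN hpn
  have := hT p hp hpN n
  rwa [if_neg hpn, mul_zero, add_zero] at this

/-- **Rankin's estimate** in the language of `S48/Defs`: truncated weights.  This is what the two
applications need (`few_values`: weights `c * 1_X`; irreducibility: `‖a p‖² ≤ 4`). -/
theorem rankin_min {N : ℕ} [NeZero N] {ε : DirichletCharacter ℂ N} {f : CuspForm (Gamma1 N) 1}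
    (h : Eigen N ε f) (K : ℝ) (hK : 0 ≤ K) :
    WeightedUpper (fun p => if p ∣ N then 0 else min (‖qCoeff f p‖ ^ 2) K) 1 := by
  classical
  obtain ⟨C, hC⟩ := rankin_trunc N ε f h.one h.hecke
  refine ⟨C + 2 * K ^ 2, fun s hs hs2 S hS => ?_⟩
  have h1 := hC K s hs hs2 (S.filter fun p => ¬ p ∣ N)
    (fun p hp => ⟨hS p (Finset.mem_filter.1 hp).1, (Finset.mem_filter.1 hp).2⟩)
    (fun p => min (‖qCoeff f p‖ ^ 2) K) (fun p _ => le_min (by positivity) hK)
    (fun p _ => min_le_left _ _) (fun p _ => min_le_right _ _)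
  rw [Finset.sum_filter] at h1
  rw [one_mul, LL]
  refine le_trans (le_of_eq ?_) h1
  refine Finset.sum_congr rfl fun p _ => ?_
  by_cases hp : p ∣ N <;> simp [hp]

/-- upper density of the set of good primes where `‖a p‖²` is large. -/
theorem upperDens_large {N : ℕ} [NeZero N] {ε : DirichletCharacter ℂ N}
    {f : CuspForm (Gamma1 N) 1} (h : Eigen N ε f) (c : ℝ) (hc : 0 < c) :
    UpperDens {p | ¬ p ∣ N ∧ c ≤ ‖qCoeff f p‖ ^ 2} (1 / c) := by
  obtain ⟨C, hC⟩ := rankin_min h c hc.le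
  refine ⟨C / c, fun s hs hs2 S hS => ?_⟩
  have h1 := hC s hs hs2 S (fun p hp => (hS p hp).1)
  have h2 : ∑ p ∈ S, (if p ∣ N then 0 else min (‖qCoeff f p‖ ^ 2) c) * (p : ℝ) ^ (-s)
      = c * ∑ p ∈ S, (p : ℝ) ^ (-s) := by
    rw [Finset.mul_sum]
    refine Finset.sum_congr rfl fun p hp => ?_
    obtain ⟨-, hpN, hpc⟩ := hS p hp
    rw [if_neg hpN, min_eq_right hpc]
  rw [h2] at h1
  rw [one_div, inv_mul_eq_div, ← add_div, le_div_iff₀ hc]
  linarith

/-- **Rankin's estimate in product form** (abstract). -/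
theorem prodUpper_of_mul {Γ : Subgroup (GL (Fin 2) ℝ)} [Γ.IsArithmetic] {F : Type*} [FunLike F ℍ ℂ]
    [CuspFormClass F Γ 1] (f : F) (hΓ : (1 : ℝ) ∈ Γ.strictPeriods) (hf₁ : qCoeff f 1 = 1)
    (good : ℕ → Prop) [DecidablePred good]
    (hmul : ∀ p n : ℕ, p.Prime → good p → ¬ p ∣ n → qCoeff f (p * n) = qCoeff f p * qCoeff f n) :
    ProdUpper (fun p => if good p then ‖qCoeff f p‖ ^ 2 else 0) := by
  obtain ⟨D, hD, hDM⟩ := sum_sq_le (k := 1) f hΓ
  simp only [zpow_one] at hDM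
  refine ⟨4 * D, fun s hs hs2 S hS => ?_⟩
  have hs1 : 0 < s - 1 := by linarith
  have h1 := prod_one_add_le (fun n => qCoeff f n) hf₁ good hmul D hD hDM hs
    (S.filter fun p => good p)
    (fun p hp => ⟨hS p (Finset.mem_filter.1 hp).1, (Finset.mem_filter.1 hp).2⟩)
  rw [Finset.prod_filter] at h1
  have h2 : ∏ p ∈ S, (1 + (if good p then ‖qCoeff f p‖ ^ 2 else 0) * (p : ℝ) ^ (-s))
      = ∏ p ∈ S, if good p then 1 + ‖qCoeff f p‖ ^ 2 * (p : ℝ) ^ (-s) else 1 :=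
    Finset.prod_congr rfl fun p _ => by
      by_cases hp : good p <;> simp [hp]
  rw [h2]
  refine h1.trans ?_
  have h3 : 1 ≤ 1 / (s - 1) := by
    rw [le_div_iff₀ hs1]; linarith
  have h4 : 4 * D / (s - 1) = 4 * D * (1 / (s - 1)) := by ring
  rw [h4]
  nlinarith [mul_nonneg hD (sub_nonneg.2 h3)]

/-- (A2) of `Forms/Top.lean`. -/
theorem rankin_prod {N : ℕ} [NeZero N] {ε : DirichletCharacter ℂ N} {f : CuspForm (Gamma1 N) 1}
    (h : Eigen N ε f) : ProdUpper (fun p => if p ∣ N then 0 else ‖qCoeff f p‖ ^ 2) := by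
  have h1 := prodUpper_of_mul f (by simp [strictPeriods_Gamma1]) h.one (fun p => ¬ p ∣ N)
    (fun p n hp hpN hpn => by
      have := h.hecke p hp hpN n
      rwa [if_neg hpn, mul_zero, add_zero] at this)
  have e : (fun p => if ¬ p ∣ N then ‖qCoeff f p‖ ^ 2 else 0)
      = fun p => if p ∣ N then 0 else ‖qCoeff f p‖ ^ 2 := by
    funext p
    by_cases hp : p ∣ N <;> simp [hp]
  rwa [e] at h1

end final

end Fermat.Agent.S48.Rankin
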