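import Fermat.Agent.S48.Forms.Integral
import Fermat.Agent.S48.Forms.Rankin
import Fermat.Agent.S48.Core.Dens
import Fermat.Agent.S23.FixedField

/-! # S48 forms (F10) = Deligne–Serre Prop. 5.5

`K = ℚ(a_p)` number field of degree `r`.  Every `τ : K →+* ℂ` extends to `σ : ℂ →+* ℂ`
(`S23.exists_ringHom_extend` / `exists_ringHom_of_transcendenceBasis`); `Eigen.conj` +
`Rankin.upperDens_large` give `UpperDens {p | ¬ p ∣ N ∧ c ≤ ‖τ a_p‖²} (1/c)`.
`Y = {x ∈ K integral | ∀ τ, ‖τ x‖ ≤ √c}` is finite (`NumberField.Embeddings.finite_of_norm_le`),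
`{p | ¬ p ∣ N ∧ a_p ∉ Y} ⊆ ⋃_τ {...}`, `UpperDens.union`, `c = r / η`. -/

set_option autoImplicit false

namespace Fermat.Agent.S48

open UpperHalfPlane ModularForm CongruenceSubgroup ModularFormClass
open scoped MatrixGroups ModularForm Manifold

/-- every embedding of a subfield of `ℂ` algebraic over `ℚ` extends to an endomorphism of `ℂ`. -/
theorem exists_ringHom_extend_complex (K : IntermediateField ℚ ℂ) [Algebra.IsAlgebraic ℚ K]
    (τ : K →+* ℂ) : ∃ σ : ℂ →+* ℂ, ∀ x : K, σ (x : ℂ) = τ x := by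
  classical
  have hKA : ∀ x : K, (x : ℂ) ∈ algebraicClosure ℚ ℂ := fun x => by
    rw [mem_algebraicClosure_iff]
    exact (Algebra.IsAlgebraic.isAlgebraic x).algebraMap (A := ℂ)
  have hτA : ∀ x : K, τ x ∈ algebraicClosure ℚ ℂ := fun x => by
    rw [mem_algebraicClosure_iff]
    exact (Algebra.IsAlgebraic.isAlgebraic x).algHom τ.toRatAlgHom
  let i : K →+* algebraicClosure ℚ ℂ :=
    (algebraMap K ℂ).codRestrict (algebraicClosure ℚ ℂ).toSubring hKA
  let j : K →+* algebraicClosure ℚ ℂ := τ.codRestrict (algebraicClosure ℚ ℂ).toSubring hτA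
  have : IsAlgClosed (algebraicClosure ℚ ℂ) :=
    (algebraicClosure.isAlgClosure ℚ ℂ).isAlgClosed
  have hal : Algebra.IsAlgebraic ℚ (algebraicClosure ℚ ℂ) := algebraicClosure.isAlgebraic ℚ ℂ
  obtain ⟨s, hs⟩ := S23.exists_ringHom_extend i j i.injective j.injective (by
    let _ := i.toAlgebra
    have : IsScalarTower ℚ K (algebraicClosure ℚ ℂ) := IsScalarTower.of_algebraMap_eq (fun q => by
      apply Subtype.ext
      simp [RingHom.algebraMap_toAlgebra, i])
    exact Algebra.IsAlgebraic.tower_top (K := ℚ) K)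
  obtain ⟨ι, v, hv⟩ := exists_isTranscendenceBasis' (algebraicClosure ℚ ℂ) ℂ
  obtain ⟨σ, hσ⟩ := S23.exists_ringHom_of_transcendenceBasis hv (MvPolynomial.map s)
    (MvPolynomial.map_injective s s.injective)
  refine ⟨σ, fun x => ?_⟩
  have h1 := hσ (MvPolynomial.C (i x))
  rw [MvPolynomial.map_C, hs] at h1
  simp only [MvPolynomial.aeval_C] at h1
  exact h1

theorem UpperDens.empty : UpperDens ∅ 0 := ⟨0, fun s _ _ S hS => by
  have : S = ∅ := Finset.eq_empty_of_forall_notMem fun p hp => (hS p hp).2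
  simp [this]⟩

theorem UpperDens.biUnion {ι : Type*} (s : Finset ι) (X : ι → Set ℕ) (d : ℝ)
    (h : ∀ i ∈ s, UpperDens (X i) d) : UpperDens (⋃ i ∈ s, X i) (s.card * d) := by
  classical
  induction s using Finset.induction_on with
  | empty => simpa using UpperDens.empty
  | insert a s ha ih =>
    rw [Finset.set_biUnion_insert, Finset.card_insert_of_notMem ha]
    have := (h a (Finset.mem_insert_self _ _)).union
      (ih fun i hi => h i (Finset.mem_insert_of_mem hi))
    convert this using 1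
    push_cast
    ring

theorem UpperDens.mono_prime {X Y : Set ℕ} {d : ℝ} (hXY : ∀ p : ℕ, p.Prime → p ∈ X → p ∈ Y)
    (hY : UpperDens Y d) : UpperDens X d := by
  obtain ⟨C, hC⟩ := hY
  exact ⟨C, fun s h1 h2 S hS => hC s h1 h2 S fun p hp =>
    ⟨(hS p hp).1, hXY p (hS p hp).1 (hS p hp).2⟩⟩

variable {N : ℕ} [NeZero N] {ε : DirichletCharacter ℂ N} {f : CuspForm (Gamma1 N) 1}

theorem Eigen.few_values (h : Eigen N ε f) (eta : ℝ) (heta : 0 < eta) :
    ∃ Y : Finset ℂ, UpperDens {p | ¬ p ∣ N ∧ qCoeff f p ∉ Y} eta := by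
  classical
  set K : IntermediateField ℚ ℂ := IntermediateField.adjoin ℚ
    {x : ℂ | ∃ p : ℕ, p.Prime ∧ ¬ p ∣ N ∧ x = qCoeff f p} with hK
  have hfd : FiniteDimensional ℚ K := h.finiteDimensional_adjoin
  have hnf : NumberField K :=
    { to_charZero := inferInstance, to_finiteDimensional := hfd }
  have hr : 0 < Fintype.card (K →+* ℂ) := Fintype.card_pos_iff.2 ⟨algebraMap K ℂ⟩
  set c : ℝ := (Fintype.card (K →+* ℂ) : ℝ) / eta with hcdef
  have hr' : (0 : ℝ) < (Fintype.card (K →+* ℂ) : ℝ) := by exact_mod_cast hr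
  have hc : 0 < c := div_pos hr' heta
  have hfin := NumberField.Embeddings.finite_of_norm_le K ℂ (Real.sqrt c)
  refine ⟨(hfin.image (fun x : K => (x : ℂ))).toFinset, ?_⟩
  have key : ∀ τ : K →+* ℂ,
      UpperDens {p | ¬ p ∣ N ∧ ∃ x : K, (x : ℂ) = qCoeff f p ∧ c ≤ ‖τ x‖ ^ 2} (1 / c) := by
    intro τ
    obtain ⟨σ, hσ⟩ := exists_ringHom_extend_complex K τ
    obtain ⟨g, hg, hgc⟩ := h.conj σ
    refine UpperDens.mono ?_ (Rankin.upperDens_large hg c hc)
    rintro p ⟨hpN, x, hx, hxc⟩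
    refine ⟨hpN, ?_⟩
    rw [hgc, ← hx, hσ]
    exact hxc
  have hU := UpperDens.biUnion Finset.univ _ (1 / c) (fun τ _ => key τ)
  have e : ((Finset.univ : Finset (K →+* ℂ)).card : ℝ) * (1 / c) = eta := by
    rw [Finset.card_univ, hcdef]
    field_simp
  rw [e] at hU
  refine UpperDens.mono_prime ?_ hU
  rintro p hp ⟨hpN, hpY⟩
  have hmem : qCoeff f p ∈ K := IntermediateField.subset_adjoin _ _ ⟨p, hp, hpN, rfl⟩
  by_contra hcon
  apply hpY
  simp only [Set.Finite.mem_toFinset, Set.mem_image]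
  refine ⟨⟨_, hmem⟩, ⟨?_, ?_⟩, rfl⟩
  · have := h.isIntegral p hp hpN
    exact (isIntegral_algebraMap_iff (algebraMap K ℂ).injective).1 this
  · intro τ
    by_contra hlt
    push Not at hlt
    apply hcon
    simp only [Set.mem_iUnion]
    refine ⟨τ, Finset.mem_univ _, hpN, ⟨_, hmem⟩, rfl, ?_⟩
    exact (Real.lt_sq_of_sqrt_lt hlt).le

end Fermat.Agent.S48
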