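import Fermat.Agent.S48.Forms.Coeff

/-! # S48 forms (F9): the `a_p` are algebraic integers and generate a number field

`M₀` = `ℤ`-span of the `a_n` (f.g. by `exists_fg_coeff`, `ℤ` noetherian), `μ` = finite set of values of
`ε`, `M = ∑_{z ∈ μ} z M₀` f.g., `1 = a_1 ∈ M`, `a_p M ⊆ M` by the Hecke relation
(`a_p a_n = a_{pn} + ε(p) a_{n/p}`).  So `a_p` is integral
(`isIntegral_of_smul_mem_submodule`) and `ℤ[a_p : p ∤ N] ⊆ M`; the `ℚ`-span of `M` is finite
dimensional and contains `ℚ[a_p]`, which is therefore a field, finite over `ℚ`. -/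

set_option autoImplicit false

namespace Fermat.Agent.S48

open UpperHalfPlane ModularForm CongruenceSubgroup ModularFormClass
open scoped MatrixGroups ModularForm Manifold

variable {N : ℕ} [NeZero N] {ε : DirichletCharacter ℂ N} {f : CuspForm (Gamma1 N) 1}

/-- The `ℤ`-module spanned by the `ε(x) a_n`. -/
noncomputable def heckeLattice (ε : DirichletCharacter ℂ N) (f : CuspForm (Gamma1 N) 1) :
    Submodule ℤ ℂ :=
  Submodule.span ℤ {z : ℂ | ∃ (x : ZMod N) (n : ℕ), z = ε x * qCoeff f n}

theorem heckeLattice_fg (ε : DirichletCharacter ℂ N) (f : CuspForm (Gamma1 N) 1) :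
    (heckeLattice ε f).FG := by
  obtain ⟨M₀, hM₀, hmem⟩ := exists_fg_coeff N f
  have hfg : (⨆ x : ZMod N, M₀.map (LinearMap.mulLeft ℤ (ε x))).FG :=
    Submodule.fg_iSup _ fun x => hM₀.map _
  refine hfg.of_le (Submodule.span_le.2 ?_)
  rintro _ ⟨x, n, rfl⟩
  exact Submodule.mem_iSup_of_mem x ⟨_, hmem n, rfl⟩

theorem Eigen.one_mem_heckeLattice (h : Eigen N ε f) : (1 : ℂ) ∈ heckeLattice ε f :=
  Submodule.subset_span ⟨1, 1, by rw [h.one, map_one, one_mul]⟩

theorem Eigen.mul_mem_heckeLattice (h : Eigen N ε f) (p : ℕ) (hp : p.Prime) (hpN : ¬ p ∣ N)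
    (z : ℂ) (hz : z ∈ heckeLattice ε f) : qCoeff f p * z ∈ heckeLattice ε f := by
  induction hz using Submodule.span_induction with
  | mem z hz =>
    obtain ⟨x, n, rfl⟩ := hz
    have h1 := h.hecke p hp hpN n
    have h2 : qCoeff f p * (ε x * qCoeff f n) =
        ε x * qCoeff f (p * n) +
          ε (x * (p : ZMod N)) * (if p ∣ n then qCoeff f (n / p) else 0) := by
      rw [map_mul, mul_left_comm, ← h1]
      ring
    rw [h2]
    refine Submodule.add_mem _ (Submodule.subset_span ⟨x, p * n, rfl⟩) ?_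
    split_ifs
    · exact Submodule.subset_span ⟨_, _, rfl⟩
    · rw [mul_zero]
      exact Submodule.zero_mem _
  | zero => rw [mul_zero]; exact Submodule.zero_mem _
  | add a b _ _ ha hb => rw [mul_add]; exact Submodule.add_mem _ ha hb
  | smul c a _ ha => rw [mul_smul_comm]; exact Submodule.smul_mem _ c ha

theorem Eigen.isIntegral (h : Eigen N ε f) (p : ℕ) (hp : p.Prime) (hpN : ¬ p ∣ N) :
    IsIntegral ℤ (qCoeff f p) := by
  refine isIntegral_of_smul_mem_submodule (heckeLattice ε f) ?_ (heckeLattice_fg ε f) _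
    (fun z hz => h.mul_mem_heckeLattice p hp hpN z hz)
  intro hbot
  have := h.one_mem_heckeLattice
  rw [hbot, Submodule.mem_bot] at this
  exact one_ne_zero this

theorem Eigen.finiteDimensional_adjoin (h : Eigen N ε f) :
    FiniteDimensional ℚ
      (IntermediateField.adjoin ℚ {x : ℂ | ∃ p : ℕ, p.Prime ∧ ¬ p ∣ N ∧ x = qCoeff f p}) := by
  set S : Set ℂ := {x : ℂ | ∃ p : ℕ, p.Prime ∧ ¬ p ∣ N ∧ x = qCoeff f p} with hS
  -- the `ℚ`-span of the lattice
  let V : Submodule ℚ ℂ := Submodule.span ℚ (heckeLattice ε f : Set ℂ)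
  have hVfin : FiniteDimensional ℚ V := by
    obtain ⟨s, hs⟩ := heckeLattice_fg ε f
    have : V = Submodule.span ℚ (s : Set ℂ) := by
      apply le_antisymm
      · refine Submodule.span_le.2 ?_
        intro z hz
        have hz' : z ∈ Submodule.span ℤ (s : Set ℂ) := by rw [hs]; exact hz
        exact Submodule.span_le_restrictScalars ℤ ℚ (s : Set ℂ) hz'
      · refine Submodule.span_mono ?_
        intro z hz
        have : z ∈ Submodule.span ℤ (s : Set ℂ) := Submodule.subset_span hz
        rw [hs] at this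
        exact this
    rw [this]
    exact FiniteDimensional.span_finset ℚ s
  have h1V : (1 : ℂ) ∈ V := Submodule.subset_span h.one_mem_heckeLattice
  -- the stabiliser of `V`
  let B : Subalgebra ℚ ℂ :=
    { carrier := {x | ∀ z ∈ V, x * z ∈ V}
      mul_mem' := fun {a b} ha hb z hz => by rw [mul_assoc]; exact ha _ (hb _ hz)
      one_mem' := fun z hz => by rw [one_mul]; exact hz
      add_mem' := fun {a b} ha hb z hz => by rw [add_mul]; exact V.add_mem (ha _ hz) (hb _ hz)
      zero_mem' := fun z _ => by rw [zero_mul]; exact V.zero_mem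
      algebraMap_mem' := fun r z hz => by
        rw [← Algebra.smul_def]
        exact V.smul_mem r hz }
  have hSB : S ⊆ B := by
    rintro _ ⟨p, hp, hpN, rfl⟩ z hz
    induction hz using Submodule.span_induction with
    | mem z hz => exact Submodule.subset_span (h.mul_mem_heckeLattice p hp hpN z hz)
    | zero => rw [mul_zero]; exact V.zero_mem
    | add a b _ _ ha hb => rw [mul_add]; exact V.add_mem ha hb
    | smul c a _ ha => rw [mul_smul_comm]; exact V.smul_mem c ha
  have hle : Subalgebra.toSubmodule (Algebra.adjoin ℚ S) ≤ V := by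
    intro x hx
    have : x ∈ B := Algebra.adjoin_le hSB hx
    simpa using this 1 h1V
  have halg : ∀ x ∈ S, IsAlgebraic ℚ x := by
    rintro _ ⟨p, hp, hpN, rfl⟩
    exact ((h.isIntegral p hp hpN).tower_top (A := ℚ)).isAlgebraic
  have heq := IntermediateField.adjoin_toSubalgebra_of_isAlgebraic halg
  have hfin : FiniteDimensional ℚ (Subalgebra.toSubmodule (Algebra.adjoin ℚ S)) :=
    Submodule.finiteDimensional_of_le hle
  have hfin2 : FiniteDimensional ℚ (IntermediateField.adjoin ℚ S).toSubalgebra := by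
    rw [heq]
    exact hfin
  exact hfin2

end Fermat.Agent.S48
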