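import Fermat.Agent.S48.Forms.Level

/-! # S48 forms (F13): the Hecke relations force the nebentypus

For `p ∤ N` prime, `γ_p ∈ Γ₀(N)` with `γ_p 1 1 ≡ p`: `T_p f - a_p f` has coefficients
`[p ∣ n] a_{n/p}(f ∣ γ_p - ε(p) f)`; `eq_zero_of_V` gives `f ∣ γ_p = ε(p) f`.  General `γ ∈ Γ₀(N)`:
Dirichlet (`Nat.forall_exists_prime_gt_and_eq_mod`) + `slash_eq_of_congr`.
`γ = -1`: `f ∣[1] (-1) = -f`, `f ≠ 0`. -/

set_option autoImplicit false

namespace Fermat.Agent.S48

open UpperHalfPlane ModularForm CongruenceSubgroup ModularFormClass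
open scoped MatrixGroups ModularForm Manifold

variable {N : ℕ} [NeZero N] {ε : DirichletCharacter ℂ N} {f : CuspForm (Gamma1 N) 1}

/-- the lower right entry of an element of `Γ₀(N)` is a unit mod `N`. -/
theorem isUnit_lowerRight_neb (γ : SL(2, ℤ)) (hγ : γ ∈ Gamma0 N) :
    IsUnit (((γ 1 1 : ℤ) : ZMod N)) := by
  have hdet := Matrix.det_fin_two γ.1
  rw [γ.2] at hdet
  have hc : ((γ 1 0 : ℤ) : ZMod N) = 0 := Gamma0_mem.mp hγ
  have h1 : ((γ 0 0 : ℤ) : ZMod N) * ((γ 1 1 : ℤ) : ZMod N) = 1 := by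
    have := congrArg (Int.cast : ℤ → ZMod N) hdet
    push_cast at this
    have hc' : ((γ.1 1 0 : ℤ) : ZMod N) = 0 := hc
    rw [hc', mul_zero, sub_zero] at this
    exact this.symm
  exact IsUnit.of_mul_eq_one _ (by rw [mul_comm]; exact h1)

theorem Eigen.hasChar (h : Eigen N ε f) : HasChar N 1 ε f := by
  intro γ hγ
  obtain ⟨p, hpN', hp, hpd⟩ :=
    Nat.forall_exists_prime_gt_and_eq_mod (isUnit_lowerRight_neb γ hγ) N
  have hpN : ¬ p ∣ N := fun hd => absurd (Nat.le_of_dvd (Nat.pos_of_ne_zero (NeZero.ne N)) hd)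
    (not_le.mpr hpN')
  obtain ⟨g, hg⟩ := exists_heckeT N 1 p hp hpN f γ hγ hpd.symm
  obtain ⟨f', hf'⟩ := exists_cuspForm_slash f γ hγ
  have key : f' - ε (p : ZMod N) • f = 0 := by
    refine eq_zero_of_V N p hp hpN (f' - ε (p : ZMod N) • f) (g - qCoeff f p • f) ?_
    intro n
    have e0 : ∀ (a b : CuspForm (Gamma1 N) 1) (c : ℂ) (m : ℕ),
        qCoeff (⇑(a - c • b) : ℍ → ℂ) m = qCoeff a m - c * qCoeff b m := by
      intro a b c m
      calc qCoeff (⇑(a - c • b) : ℍ → ℂ) m = coeffL N 1 m (a - c • b) := rfl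
        _ = coeffL N 1 m a - c * coeffL N 1 m b := by rw [map_sub, map_smul, smul_eq_mul]
        _ = _ := rfl
    rw [e0, hg, ← h.hecke p hp hpN n, e0, ← hf']
    split_ifs with hdvd
    · simp
    · simp
  have h2 : f' = ε (p : ZMod N) • f := sub_eq_zero.mp key
  rw [← hf', h2, hpd]
  rfl

theorem Eigen.ne_zero (h : Eigen N ε f) : (⇑f : ℍ → ℂ) ≠ 0 := by
  intro h0
  have hf : f = 0 := DFunLike.coe_injective (by rw [h0]; rfl)
  have h1 := h.one
  rw [← coeffL_apply, hf, map_zero] at h1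
  exact zero_ne_one h1

theorem Eigen.eps_neg_one (h : Eigen N ε f) : ε (-1) = -1 := by
  by_contra hne
  exact h.ne_zero (eq_zero_of_hasChar_of_ne h.hasChar (by simpa using hne))

end Fermat.Agent.S48
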