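import Fermat.Agent.S48.Forms.Defs
import Fermat.Agent.GAL.EisChar

/-! # S48 forms (F3): the weight 3 Eisenstein series `E₃^{ψ,1} = ∑_n (∑_{m ∣ n} ψ(n/m) m²) qⁿ`

`S(τ) = GAL.EisChar.wsum (fun v => ψ (v 0)) 3 τ = ∑_{(c,d)} ψ(c) (cτ+d)⁻³` (landed API: `wsum_slash`,
`mdiff_wsum`, `isBoundedAtImInfty_wsum`).  For `γ ∈ Γ₀(N)`: `(v γ⁻¹) 0 ≡ v 0 * γ 1 1`, so
`S ∣[3] γ = ψ(γ 1 1) S`.  `q`-expansion: `c = 0` contributes `0` (`ψ 0 = 0`, `N ≥ 3`), and
`∑_d (cτ+d)⁻³ = (-2πi)³/2! ∑_m m² e^{2πi m c τ}` for `c > 0`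
(Mathlib `EisensteinSeries.qExpansion_identity`); `c` and `-c` give the same contribution as `ψ` is odd.
Divide by `2 (-2πi)³/2!`. -/

set_option autoImplicit false

namespace Fermat.Agent.S48

open UpperHalfPlane ModularForm CongruenceSubgroup ModularFormClass
open scoped MatrixGroups ModularForm Manifold

namespace Eis3

open GAL.EisChar EisensteinSeries Complex Real Matrix

variable {N : ℕ} (ψ : DirichletCharacter ℂ N)

/-- The coefficient function `(c, d) ↦ ψ(c)`. -/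
noncomputable def cf (v : Fin 2 → ℤ) : ℂ := ψ ((v 0 : ℤ) : ZMod N)

lemma norm_cf_le (v : Fin 2 → ℤ) : ‖cf ψ v‖ ≤ 1 := DirichletCharacter.norm_le_one ψ _

lemma cf_symm (A : SL(2, ℤ)) (hA : A ∈ Gamma0 N) (v : Fin 2 → ℤ) :
    cf ψ ((vecEquiv A).symm v) = ψ ((A 1 1 : ℤ) : ZMod N) * cf ψ v := by
  rw [Gamma0_mem] at hA
  unfold cf
  rw [← map_mul]
  congr 1
  rw [vecEquiv_symm_apply, Matrix.SpecialLinearGroup.SL2_inv_expl]
  simp [Matrix.vecMul, dotProduct, Fin.sum_univ_two, hA, mul_comm]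

lemma wsum_slash_Gamma0 (A : SL(2, ℤ)) (hA : A ∈ Gamma0 N) :
    wsum (cf ψ) 3 ∣[(3 : ℤ)] A = ψ ((A 1 1 : ℤ) : ZMod N) • wsum (cf ψ) 3 := by
  rw [wsum_slash]
  ext z
  simp only [wsum, Pi.smul_apply, smul_eq_mul, cf_symm ψ A hA, mul_assoc, tsum_mul_left]

lemma isBounded_slash (A : SL(2, ℤ)) : IsBoundedAtImInfty (wsum (cf ψ) 3 ∣[(3 : ℤ)] A) := by
  rw [wsum_slash]
  exact isBoundedAtImInfty_wsum (fun v => norm_cf_le ψ _) le_rfl

/-- the coefficients of the `q`-expansion -/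
noncomputable def co (n : ℕ) : ℂ := ∑ m ∈ n.divisors, ψ ((n / m : ℕ) : ZMod N) * (m : ℂ) ^ 2

lemma summable_prod_term (z : ℍ) :
    Summable fun x : ℤ × ℤ ↦ cf ψ ![x.1, x.2] * eisSummand 3 ![x.1, x.2] z := by
  refine (finTwoArrowEquiv ℤ).summable_iff.mp <|
    (summable_term (norm_cf_le ψ) le_rfl z).congr (fun v ↦ ?_)
  simp [show ![v 0, v 1] = v from List.ofFn_inj.mp rfl]

lemma summable_chi_prod {r : ℂ} (hr : ‖r‖ < 1) :
    Summable fun c : ℕ+ × ℕ+ ↦ ψ ((c.1 : ℕ) : ZMod N) * ((c.2 : ℂ) ^ 2 * r ^ (c.1 * c.2 : ℕ)) := by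
  refine Summable.of_norm_bounded (summable_prod_mul_pow (𝕜 := ℂ) 2 hr).norm fun c => ?_
  rw [norm_mul]
  exact mul_le_of_le_one_left (norm_nonneg _) (DirichletCharacter.norm_le_one ψ _)

lemma tsum_chi_prod {r : ℂ} (hr : ‖r‖ < 1) :
    ∑' d : ℕ+, ∑' c : ℕ+, ψ ((d : ℕ) : ZMod N) * ((c : ℂ) ^ 2 * r ^ (d * c : ℕ)) =
      ∑' e : ℕ+, co ψ e * r ^ (e : ℕ) := by
  rw [← (summable_chi_prod ψ hr).tsum_prod (f := fun c : ℕ+ × ℕ+ ↦
    ψ ((c.1 : ℕ) : ZMod N) * ((c.2 : ℂ) ^ 2 * r ^ (c.1 * c.2 : ℕ)))]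
  rw [← sigmaAntidiagonalEquivProd.tsum_eq]
  have hs := sigmaAntidiagonalEquivProd.summable_iff.mpr (summable_chi_prod ψ hr)
  simp only [Function.comp_def] at hs
  rw [Summable.tsum_sigma hs]
  refine tsum_congr fun n ↦ ?_
  rw [tsum_fintype, co, Finset.sum_mul]
  simp only [sigmaAntidiagonalEquivProd, divisorsAntidiagonalFactors, PNat.mk_coe, Equiv.coe_fn_mk,
    Finset.univ_eq_attach]
  rw [(n : ℕ).divisorsAntidiagonal.sum_attach fun x : ℕ × ℕ ↦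
    ψ ((x.1 : ℕ) : ZMod N) * ((x.2 : ℂ) ^ 2 * r ^ (x.1 * x.2))]
  rw [Nat.sum_divisorsAntidiagonal' fun x y ↦ ψ ((x : ℕ) : ZMod N) * ((y : ℂ) ^ 2 * r ^ (x * y))]
  refine Finset.sum_congr rfl fun i hi ↦ ?_
  rw [Nat.div_mul_cancel (Nat.dvd_of_mem_divisors hi), mul_assoc]

lemma map_zero_of_odd (hψ : ψ (-1) = -1) : ψ 0 = 0 := by
  have : Nontrivial (ZMod N) := by
    by_contra h
    rw [not_nontrivial_iff_subsingleton] at h
    have h1 : ψ (-1) = ψ 1 := congrArg ψ (Subsingleton.elim _ _)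
    rw [hψ, map_one] at h1
    norm_num at h1
  exact MulChar.map_zero ψ

lemma map_neg_of_odd (hψ : ψ (-1) = -1) (x : ZMod N) : ψ (-x) = -ψ x := by
  rw [← neg_one_mul, map_mul, hψ, neg_one_mul]

lemma wsum_eq (hψ : ψ (-1) = -1) (z : ℍ) :
    wsum (cf ψ) 3 z = (-2 * π * Complex.I) ^ 3 *
      ∑' n : ℕ+, co ψ n * cexp (2 * π * Complex.I * z) ^ (n : ℕ) := by
  unfold wsum
  rw [← (finTwoArrowEquiv ℤ).symm.tsum_eq, finTwoArrowEquiv_symm_apply,
    Summable.tsum_prod (summable_prod_term ψ z),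
    tsum_int_eq_zero_add_two_mul_tsum_pnat (fun n ↦ ?h₁)
      (by simpa using (summable_prod_term ψ z).prod)]
  case h₁ =>
    nth_rewrite 1 [← tsum_comp_neg]
    refine tsum_congr fun y ↦ ?_
    simp only [cf, eisSummand, cons_val_zero, cons_val_one, Int.cast_neg, map_neg_of_odd ψ hψ]
    rw [show -(n : ℂ) * (z : ℂ) + -(y : ℂ) = -((n : ℂ) * z + y) by ring,
      show (-3 : ℤ) = -(3 : ℕ) by norm_num, _root_.zpow_neg, _root_.zpow_neg,
      zpow_natCast, zpow_natCast, Odd.neg_pow (by decide), inv_neg, neg_mul_neg]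
  have H (b : ℕ+) := qExpansion_identity_pnat (k := 2) (by norm_num) ⟨b * z, by simpa using z.2⟩
  simp only [Nat.reduceAdd, one_div, neg_mul] at H
  have h0 : ∑' d : ℤ, cf ψ ![0, d] * eisSummand 3 ![0, d] z = 0 := by
    simp [cf, map_zero_of_odd ψ hψ]
  rw [h0, zero_add, ← tsum_chi_prod ψ (norm_exp_two_pi_I_lt_one z)]
  rw [nsmul_eq_mul, ← tsum_mul_left, ← tsum_mul_left]
  refine tsum_congr fun b ↦ ?_
  have h1 : ∑' c : ℤ, cf ψ ![((b : ℕ) : ℤ), c] * eisSummand 3 ![((b : ℕ) : ℤ), c] z =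
      ψ ((b : ℕ) : ZMod N) * ∑' n : ℤ, ((((b : ℕ) : ℂ) * z + n) ^ 3)⁻¹ := by
    rw [← tsum_mul_left]
    refine tsum_congr fun c ↦ ?_
    simp only [cf, eisSummand, cons_val_zero, cons_val_one, Int.cast_natCast]
    rw [show (-3 : ℤ) = -(3 : ℕ) by norm_num, _root_.zpow_neg, zpow_natCast]
  simp only
  rw [h1, H b, tsum_mul_left]
  have h2 : ∀ n : ℕ+, ((n : ℕ) : ℂ) ^ 2 * cexp (2 * π * Complex.I * (((b : ℕ) : ℂ) * z)) ^ (n : ℕ) =
      ((n : ℕ) : ℂ) ^ 2 * cexp (2 * π * Complex.I * z) ^ ((b : ℕ) * (n : ℕ)) := by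
    intro n
    rw [← Complex.exp_nat_mul, ← Complex.exp_nat_mul]
    push_cast
    ring_nf
  rw [tsum_congr h2]
  simp only [Nat.factorial, Nat.cast_ofNat]
  push_cast
  ring

lemma co_zero : co ψ 0 = 0 := by simp [co]

lemma norm_co_le (n : ℕ) : ‖co ψ n‖ ≤ (n : ℝ) ^ 3 := by
  unfold co
  refine (norm_sum_le _ _).trans ?_
  have h1 : ∀ m ∈ n.divisors, ‖ψ ((n / m : ℕ) : ZMod N) * (m : ℂ) ^ 2‖ ≤ (n : ℝ) ^ 2 := by
    intro m hm
    rw [norm_mul, norm_pow, Complex.norm_natCast]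
    refine (mul_le_of_le_one_left (by positivity) (DirichletCharacter.norm_le_one ψ _)).trans ?_
    gcongr
    exact Nat.divisor_le hm
  refine (Finset.sum_le_card_nsmul _ _ _ h1).trans ?_
  rw [nsmul_eq_mul, pow_succ' (n : ℝ) 2]
  gcongr
  exact Nat.card_divisors_le_self n

lemma summable_co (z : ℍ) :
    Summable fun n : ℕ ↦ co ψ n * cexp (2 * π * Complex.I * z) ^ n := by
  apply Summable.of_norm_bounded
    (summable_norm_pow_mul_geometric_of_norm_lt_one 3 (norm_exp_two_pi_I_lt_one z))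
  intro n
  simp only [norm_mul, Complex.norm_natCast, norm_pow]
  gcongr
  exact norm_co_le ψ n

lemma hasSum_wsum (hψ : ψ (-1) = -1) (z : ℍ) :
    HasSum (fun n : ℕ ↦ co ψ n * cexp (2 * π * Complex.I * z) ^ n)
      (((-2 * π * Complex.I) ^ 3)⁻¹ * wsum (cf ψ) 3 z) := by
  have hne : ((-2 * π * Complex.I) ^ 3 : ℂ) ≠ 0 := by
    apply pow_ne_zero
    simp [Real.pi_ne_zero]
  rw [wsum_eq ψ hψ, inv_mul_cancel_left₀ hne]
  have := (summable_co ψ z).hasSum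
  rwa [← tsum_zero_pnat_eq_tsum_nat (summable_co ψ z), co_zero, zero_mul, zero_add] at this

end Eis3

open Eis3 GAL.EisChar in
theorem exists_eis3 (N : ℕ) [NeZero N] (ψ : DirichletCharacter ℂ N) (hψ : ψ (-1) = -1) :
    ∃ E : ModularForm (Gamma1 N) 3, HasChar N 3 ψ E ∧
      ∀ n : ℕ, qCoeff E n = ∑ m ∈ n.divisors, ψ ((n / m : ℕ) : ZMod N) * (m : ℂ) ^ 2 := by
  set K : ℂ := ((-2 * Real.pi * Complex.I) ^ 3)⁻¹ with hK
  have hsl : ∀ γ : SL(2, ℤ), γ ∈ Gamma0 N → (K • wsum (cf ψ) 3) ∣[(3 : ℤ)] γ =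
      ψ ((γ 1 1 : ℤ) : ZMod N) • (K • wsum (cf ψ) 3) := by
    intro γ hγ
    rw [ModularForm.SL_smul_slash, wsum_slash_Gamma0 ψ γ hγ, smul_comm]
  let E : ModularForm (Gamma1 N) 3 :=
    { toFun := K • wsum (cf ψ) 3
      slash_action_eq' := by
        rintro _ ⟨γ, hγ, rfl⟩
        have h1 := hsl γ (Gamma1_in_Gamma0 N hγ)
        replace hγ : γ ∈ Gamma1 N := hγ
        rw [Gamma1_mem] at hγ
        rw [hγ.2.1, map_one, one_smul] at h1
        exact h1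
      holo' := (mdiff_wsum (norm_cf_le ψ) le_rfl).const_smul K
      bdd_at_cusps' := by
        intro c hc
        rw [Subgroup.IsArithmetic.isCusp_iff_isCusp_SL2Z] at hc
        rw [OnePoint.isBoundedAt_iff_forall_SL2Z hc]
        intro γ _
        rw [ModularForm.SL_smul_slash]
        exact (isBounded_slash ψ γ).const_smul_left K }
  refine ⟨E, hsl, fun n => ?_⟩
  refine (ModularFormClass.qExpansion_coeff_unique (c := co ψ) one_pos (by simp) (f := E)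
    (fun τ => ?_) n).symm
  have := hasSum_wsum ψ hψ τ
  have hq : Function.Periodic.qParam 1 (τ : ℂ) = Complex.exp (2 * Real.pi * Complex.I * τ) := by
    simp [Function.Periodic.qParam]
  simp only [hq, smul_eq_mul]
  exact this

end Fermat.Agent.S48
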