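import Fermat.Agent.S48.Forms.Defs

/-! # S48 forms (F2): products of forms with characters; descent to `Γ₀(N)` -/

set_option autoImplicit false

namespace Fermat.Agent.S48

open UpperHalfPlane ModularForm CongruenceSubgroup ModularFormClass
open scoped MatrixGroups ModularForm Manifold

variable {N : ℕ} {k k₁ k₂ : ℤ}

theorem HasChar.mul {χ₁ χ₂ : DirichletCharacter ℂ N} {F₁ F₂ : ℍ → ℂ} (h₁ : HasChar N k₁ χ₁ F₁)
    (h₂ : HasChar N k₂ χ₂ F₂) : HasChar N (k₁ + k₂) (χ₁ * χ₂) (F₁ * F₂) := by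
  intro γ hγ
  rw [ModularForm.mul_slash_SL2, h₁ γ hγ, h₂ γ hγ, MulChar.mul_apply]
  funext z
  simp only [Pi.mul_apply, Pi.smul_apply, smul_eq_mul]
  ring

/-- the lower right entry of an element of `Γ₀(N)` is a unit mod `N`. -/
theorem isUnit_lowerRight_of_mem_Gamma0 {γ : SL(2, ℤ)} (hγ : γ ∈ Gamma0 N) :
    IsUnit (((γ 1 1 : ℤ) : ZMod N)) := by
  have h1 : ((γ 1 0 : ℤ) : ZMod N) = 0 := Gamma0_mem.mp hγ
  have h2 : γ 0 0 * γ 1 1 - γ 0 1 * γ 1 0 = 1 := by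
    have := γ.det_coe
    rwa [Matrix.det_fin_two] at this
  have h3 : ((γ 0 0 : ℤ) : ZMod N) * ((γ 1 1 : ℤ) : ZMod N) = 1 := by
    have := congrArg (Int.cast : ℤ → ZMod N) h2
    push_cast at this
    rw [h1, mul_zero, sub_zero] at this
    exact this
  exact IsUnit.of_mul_eq_one_right _ h3

theorem HasChar.one_iff {F : ℍ → ℂ} :
    HasChar N k 1 F ↔ ∀ γ : SL(2, ℤ), γ ∈ Gamma0 N → F ∣[k] γ = F := by
  refine forall₂_congr fun γ hγ => ?_
  rw [MulChar.one_apply (isUnit_lowerRight_of_mem_Gamma0 hγ), one_smul]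

theorem HasChar.pow {χ : DirichletCharacter ℂ N} {F : ℍ → ℂ} (h : HasChar N k χ F) (m : ℕ) :
    HasChar N (m * k) (χ ^ m) (F ^ m) := by
  induction m with
  | zero =>
    rw [pow_zero, pow_zero, HasChar.one_iff]
    intro γ _
    simp only [Nat.cast_zero, zero_mul]
    exact ModularForm.is_invariant_one γ
  | succ m ih =>
    have := ih.mul h
    rw [← pow_succ, ← pow_succ] at this
    have hk : ((m + 1 : ℕ) : ℤ) * k = (m : ℤ) * k + k := by push_cast; ring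
    rw [hk]
    exact this

/-- `Γ₀(N)` and `Γ₁(N)` have the same cusps (all `N`, including `N = 0`). -/
theorem isCusp_Gamma1_of_Gamma0 {c : OnePoint ℝ}
    (hc : IsCusp c ((Gamma0 N).map (Matrix.SpecialLinearGroup.mapGL ℝ))) :
    IsCusp c ((Gamma1 N).map (Matrix.SpecialLinearGroup.mapGL ℝ)) := by
  obtain ⟨_, ⟨γ, hγ, rfl⟩, hgp, hgc⟩ := hc
  have hfin : Finite (ZMod N)ˣ := by
    cases N with
    | zero => exact (inferInstance : Finite ℤˣ)
    | succ n => infer_instance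
  obtain ⟨n, hn, hpow⟩ := isOfFinOrder_iff_pow_eq_one.mp
    (isOfFinOrder_of_finite ((Gamma0Map N).toHomUnits ⟨γ, hγ⟩))
  have h1 : Gamma0Map N (⟨γ, hγ⟩ ^ n) = 1 := by
    have := congrArg Units.val hpow
    rw [map_pow]
    simpa using this
  have h2 : γ ^ n ∈ Gamma1 N := by
    have h3 : ((⟨γ, hγ⟩ : Gamma0 N) ^ n) ∈ Gamma1' N := Gamma1_mem'.mpr h1
    exact ⟨⟨_, h3⟩, trivial, rfl⟩
  refine ⟨(Matrix.SpecialLinearGroup.mapGL ℝ γ) ^ n, ⟨γ ^ n, h2, map_pow _ _ _⟩,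
    hgp.pow hn.ne', ?_⟩
  rwa [(hgp.pow hn.ne').smul_eq_self_iff, hgp.parabolicFixedPoint_pow hn.ne',
    ← hgp.smul_eq_self_iff]

theorem isCusp_SL2Z_of_Gamma0 {c : OnePoint ℝ}
    (hc : IsCusp c ((Gamma0 N).map (Matrix.SpecialLinearGroup.mapGL ℝ))) : IsCusp c 𝒮ℒ := by
  refine hc.mono ?_
  rintro _ ⟨γ, _, rfl⟩
  exact ⟨γ, rfl⟩

/-- A holomorphic `Γ₀(N)`-invariant function vanishing at the cusps of `Γ₁(N)`. -/
theorem exists_Gamma0_of_invariant {F : ℍ → ℂ} (hF : MDiff F) (hinv : HasChar N k 1 F)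
    (hz : ∀ {c : OnePoint ℝ}, IsCusp c ((Gamma1 N).map (Matrix.SpecialLinearGroup.mapGL ℝ)) →
      c.IsZeroAt F k) :
    ∃ g : CuspForm (Gamma0 N) k, (⇑g : ℍ → ℂ) = F := by
  refine ⟨{ toFun := F
            slash_action_eq' := ?_
            holo' := hF
            zero_at_cusps' := fun hc => hz (isCusp_Gamma1_of_Gamma0 hc) }, rfl⟩
  rintro _ ⟨γ, hγ, rfl⟩
  exact HasChar.one_iff.mp hinv γ hγ

theorem isCusp_SL2Z_of_Gamma1 {c : OnePoint ℝ}
    (hc : IsCusp c ((Gamma1 N).map (Matrix.SpecialLinearGroup.mapGL ℝ))) : IsCusp c 𝒮ℒ := by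
  refine hc.mono ?_
  rintro _ ⟨γ, _, rfl⟩
  exact ⟨γ, rfl⟩

theorem exists_Gamma0_mul {χ : DirichletCharacter ℂ N} (f : CuspForm (Gamma1 N) k₁)
    (hf : HasChar N k₁ χ f) (E : ModularForm (Gamma1 N) k₂) (hE : HasChar N k₂ χ⁻¹ E) :
    ∃ g : CuspForm (Gamma0 N) (k₁ + k₂), (⇑g : ℍ → ℂ) = ⇑f * ⇑E := by
  refine exists_Gamma0_of_invariant (f.holo'.mul E.holo') ?_ ?_
  · have := hf.mul hE
    rwa [mul_inv_cancel] at this
  · intro c hc
    have h1 := f.zero_at_cusps' hc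
    have h2 := E.bdd_at_cusps' hc
    have hc' := isCusp_SL2Z_of_Gamma1 hc
    rw [OnePoint.isZeroAt_iff_forall_SL2Z hc'] at h1 ⊢
    rw [OnePoint.isBoundedAt_iff_forall_SL2Z hc'] at h2
    intro δ hδ
    rw [ModularForm.mul_slash_SL2]
    exact (h1 δ hδ).mul_boundedAtFilter (h2 δ hδ)

theorem exists_Gamma0_pow {χ : DirichletCharacter ℂ N} (f : CuspForm (Gamma1 N) k)
    (hf : HasChar N k χ f) (m : ℕ) (hm : 0 < m) (hχ : χ ^ m = 1) :
    ∃ g : CuspForm (Gamma0 N) (m * k), (⇑g : ℍ → ℂ) = ⇑f ^ m := by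
  refine exists_Gamma0_of_invariant (f.holo'.pow m) ?_ ?_
  · have := hf.pow m
    rwa [hχ] at this
  · intro c hc
    have h1 := f.zero_at_cusps' hc
    have hc' := isCusp_SL2Z_of_Gamma1 hc
    rw [OnePoint.isZeroAt_iff_forall_SL2Z hc'] at h1 ⊢
    intro δ hδ
    have h2 := h1 δ hδ
    have key : ∀ n : ℕ, ((⇑f ^ (n + 1) : ℍ → ℂ) ∣[((n + 1 : ℕ) : ℤ) * k] δ) = (⇑f ∣[k] δ) ^ (n + 1) ∧
        IsZeroAtImInfty ((⇑f ∣[k] δ) ^ (n + 1)) := by
      intro n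
      induction n with
      | zero =>
        simp only [zero_add, pow_one, Nat.cast_one, one_mul]
        exact ⟨trivial, h2⟩
      | succ n ih =>
        have hk : ((n + 1 + 1 : ℕ) : ℤ) * k = ((n + 1 : ℕ) : ℤ) * k + k := by push_cast; ring
        refine ⟨?_, ?_⟩
        · rw [hk, pow_succ (⇑f) (n + 1), ModularForm.mul_slash_SL2, ih.1, ← pow_succ]
        · rw [pow_succ]
          exact ih.2.mul_boundedAtFilter h2.boundedAtFilter
    obtain ⟨n, rfl⟩ : ∃ n, m = n + 1 := ⟨m - 1, by omega⟩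
    rw [(key n).1]
    exact (key n).2

/-- restriction `Γ₀(N) → Γ₁(N)`. -/
theorem exists_Gamma1_of_Gamma0 (g : CuspForm (Gamma0 N) k) :
    ∃ f : CuspForm (Gamma1 N) k, (⇑f : ℍ → ℂ) = ⇑g ∧ HasChar N k 1 f := by
  have hinv : ∀ γ : SL(2, ℤ), γ ∈ Gamma0 N → (⇑g : ℍ → ℂ) ∣[k] γ = ⇑g := fun γ hγ =>
    g.slash_action_eq' _ ⟨γ, hγ, rfl⟩
  refine ⟨{ toFun := g
            slash_action_eq' := ?_
            holo' := g.holo'
            zero_at_cusps' := fun hc => g.zero_at_cusps' (hc.mono ?_) }, rfl,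
    HasChar.one_iff.mpr hinv⟩
  · rintro _ ⟨γ, hγ, rfl⟩
    exact hinv γ (Gamma1_in_Gamma0 N hγ)
  · exact Subgroup.map_mono (Gamma1_in_Gamma0 N)

end Fermat.Agent.S48
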