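import Fermat.Agent.S48.Forms.Char
import Fermat.Agent.S48.Forms.ToGamma0
import Fermat.Agent.S48.Forms.Eis3
import Fermat.Agent.S23.Main

/-! # S48 forms (F7): bounded denominators on `S₁(Γ₁(N))`

`S23.den_core` needs, for `x = qExpansion 1 g` rational: a monic relation over `S23.CZ` and
`H * x = G` with `H ≠ 0`, `H, G ∈ CZ`.  Write `g = ∑_χ g_χ` (F1; only odd `χ` matter).
* `qExpansion (g_χ)^m ∈ CZ` (`m = φ(N)`, `exists_Gamma0_pow`, `qExpansion_mem_CZ`), so each
  `qExpansion g_χ` is integral over the subring `CZ` of `ℂ⟦X⟧` (`S23.CZ_mul`), hence so is their sum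
  (`IsIntegral.sum`); unfold the monic polynomial into the shape of `den_core`.
* `H = ∏_χ qExpansion E₃^{χ⁻¹,1}` (coefficients in the f.g. ℤ-module `ℤ[values of χ]`, so `∈ CZ`;
  `≠ 0` since the coefficient of `q` is `1`), `H x = ∑_χ (g_χ E₃^{χ⁻¹,1}) ∏_{χ' ≠ χ} E₃^{χ'⁻¹,1} ∈ CZ`. -/

set_option autoImplicit false

namespace Fermat.Agent.S48

open UpperHalfPlane ModularForm CongruenceSubgroup ModularFormClass
open scoped MatrixGroups ModularForm Manifold

namespace DenAux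

theorem one_mem_periods (N : ℕ) :
    (1 : ℝ) ∈ (Gamma1 N : Subgroup (GL (Fin 2) ℝ)).strictPeriods := by
  simp [strictPeriods_Gamma1]

theorem nice_mod {N : ℕ} {k : ℤ} (f : ModularForm (Gamma1 N) k) : S23.IsNice f :=
  S23.isNice_of_modularForm (one_mem_periods N) f

theorem nice_cusp {N : ℕ} {k : ℤ} (f : CuspForm (Gamma1 N) k) : S23.IsNice f where
  holo := f.holo'
  per := SlashInvariantFormClass.periodic_comp_ofComplex f (one_mem_periods N)
  bdd := OnePoint.isBoundedAt_infty_iff.mp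
    (ModularFormClass.bdd_at_cusps f (Subgroup.isCusp_of_mem_strictPeriods one_pos
      (one_mem_periods N)))

theorem qExpansion_sum_cusp {N : ℕ} {k : ℤ} {ι : Type*} (s : Finset ι)
    (F : ι → CuspForm (Gamma1 N) k) :
    qExpansion 1 (⇑(∑ i ∈ s, F i) : ℍ → ℂ) = ∑ i ∈ s, qExpansion 1 (⇑(F i) : ℍ → ℂ) := by
  classical
  induction s using Finset.induction_on with
  | empty => simp [UpperHalfPlane.qExpansion_zero]
  | insert a s ha ih =>
    rw [Finset.sum_insert ha, Finset.sum_insert ha, FunLike.coe_add,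
      (nice_cusp _).qExpansion_add (nice_cusp _), ih]

/-- `CZ` as a subring of `ℂ⟦X⟧`. -/
def CZring : Subring (PowerSeries ℂ) where
  carrier := S23.CZ
  mul_mem' := S23.CZ_mul
  one_mem' := S23.IsIntPS.one.mem_CZ
  add_mem' := S23.CZ.add_mem
  zero_mem' := S23.CZ.zero_mem
  neg_mem' := S23.CZ.neg_mem

theorem isIntegral_of_pow_mem {y : PowerSeries ℂ} {m : ℕ} (hm : 0 < m) (hy : y ^ m ∈ S23.CZ) :
    IsIntegral CZring y := by
  refine IsIntegral.of_pow hm ?_
  exact isIntegral_algebraMap (R := CZring) (x := (⟨y ^ m, hy⟩ : CZring))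

/-- unfold integrality into the shape of `S23.den_core`. -/
theorem exists_rel {x : PowerSeries ℂ} (hx : IsIntegral CZring x) :
    ∃ (n : ℕ) (e : ℕ → PowerSeries ℂ), (∀ i, e i ∈ S23.CZ) ∧
      x ^ (n + 1) + ∑ i ∈ Finset.range (n + 1), e i * x ^ (n - i) = 0 := by
  obtain ⟨p, hp, hpx⟩ := hx
  rcases Nat.eq_zero_or_pos p.natDegree with h0 | h0
  · rw [hp.natDegree_eq_zero.1 h0] at hpx
    simp at hpx
  obtain ⟨n, hn⟩ : ∃ n, p.natDegree = n + 1 := ⟨p.natDegree - 1, by omega⟩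
  refine ⟨n, fun i => (p.coeff (n - i) : PowerSeries ℂ), fun i => (p.coeff (n - i)).2, ?_⟩
  rw [Polynomial.eval₂_eq_sum_range, hn, Finset.sum_range_succ] at hpx
  have hlead : p.coeff (n + 1) = 1 := by rw [← hn]; exact hp.coeff_natDegree
  rw [hlead, map_one, one_mul, ← Finset.sum_range_reflect] at hpx
  rw [add_comm, ← hpx]
  congr 1

/-- `y` is a fraction of elements of `CZ`. -/
def IsFrac (y : PowerSeries ℂ) : Prop := ∃ H ∈ S23.CZ, H ≠ 0 ∧ H * y ∈ S23.CZ

theorem IsFrac.zero : IsFrac 0 :=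
  ⟨1, S23.IsIntPS.one.mem_CZ, one_ne_zero, by rw [mul_zero]; exact S23.CZ.zero_mem⟩

theorem IsFrac.add {y z : PowerSeries ℂ} (hy : IsFrac y) (hz : IsFrac z) : IsFrac (y + z) := by
  obtain ⟨H₁, h₁, h₁0, h₁y⟩ := hy
  obtain ⟨H₂, h₂, h₂0, h₂z⟩ := hz
  refine ⟨H₁ * H₂, S23.CZ_mul h₁ h₂, mul_ne_zero h₁0 h₂0, ?_⟩
  have : H₁ * H₂ * (y + z) = H₂ * (H₁ * y) + H₁ * (H₂ * z) := by ring
  rw [this]
  exact S23.CZ.add_mem (S23.CZ_mul h₂ h₁y) (S23.CZ_mul h₁ h₂z)

theorem IsFrac.sum {ι : Type*} (s : Finset ι) {y : ι → PowerSeries ℂ}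
    (h : ∀ i ∈ s, IsFrac (y i)) : IsFrac (∑ i ∈ s, y i) := by
  classical
  induction s using Finset.induction_on with
  | empty => simpa using IsFrac.zero
  | insert a s ha ih =>
    rw [Finset.sum_insert ha]
    exact (h a (Finset.mem_insert_self a s)).add
      (ih fun i hi => h i (Finset.mem_insert_of_mem hi))

/-- weight one forms with a character which is not odd vanish. -/
theorem eq_zero_of_not_odd {N : ℕ} {χ : DirichletCharacter ℂ N} {F : ℍ → ℂ}
    (hF : HasChar N 1 χ F) (hχ : χ (-1) ≠ -1) : F = 0 := by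
  have h1 := hF (-1) (by rw [Gamma0_mem]; simp)
  funext z
  have h2 := congrFun h1 z
  rw [SL_slash_apply] at h2
  have h3 : ((-1 : SL(2, ℤ)) • z) = z := by
    simp
  have h4 : denom ((-1 : SL(2, ℤ)) : GL (Fin 2) ℝ) z = -1 := by
    simp [denom]
  rw [h3, h4] at h2
  have h5 : (((-1 : SL(2, ℤ)) 1 1 : ℤ) : ZMod N) = -1 := by simp
  rw [h5] at h2
  simp only [Pi.smul_apply, smul_eq_mul, Pi.zero_apply] at h2 ⊢
  have h6 : (χ (-1) + 1) * F z = 0 := by
    have : ((-1 : ℂ)) ^ (-1 : ℤ) = -1 := by norm_num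
    rw [this] at h2
    linear_combination -h2
  rcases mul_eq_zero.1 h6 with h7 | h7
  · exact absurd (eq_neg_of_add_eq_zero_left h7) hχ
  · exact h7

end DenAux

open DenAux

theorem qExpansion_mem_CZ (N : ℕ) [NeZero N] (k : ℤ) (g : CuspForm (Gamma0 N) k) :
    qExpansion 1 g ∈ S23.CZ := by
  have hg : g ∈ Submodule.span ℂ
      ((CuspForm.intLattice N k : Submodule ℤ (CuspForm (Gamma0 N) k)) :
        Set (CuspForm (Gamma0 N) k)) := by
    have := S23.hasIntegralStructure N k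
    unfold CuspForm.HasIntegralStructure at this
    rw [this]
    exact Submodule.mem_top
  have key : ∀ x ∈ CuspForm.intLattice N k, qExpansion 1 x ∈ S23.CZ := by
    intro x hx'
    unfold CuspForm.intLattice at hx'
    induction hx' using Submodule.span_induction with
    | mem y hy => exact S23.IsIntPS.mem_CZ hy
    | zero =>
      rw [FunLike.coe_zero, UpperHalfPlane.qExpansion_zero]
      exact S23.CZ.zero_mem
    | add a b _ _ ha hb =>
      rw [FunLike.coe_add,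
        (S23.isNice_cuspForm_Gamma0 a).qExpansion_add (S23.isNice_cuspForm_Gamma0 b)]
      exact S23.CZ.add_mem ha hb
    | smul c a _ ha =>
      rw [← Int.cast_smul_eq_zsmul ℂ c a, FunLike.coe_smul,
        (S23.isNice_cuspForm_Gamma0 a).qExpansion_smul]
      exact S23.CZ.smul_mem _ ha
  induction hg using Submodule.span_induction with
  | mem x hx => exact key x hx
  | zero =>
    rw [FunLike.coe_zero, UpperHalfPlane.qExpansion_zero]
    exact S23.CZ.zero_mem
  | add a b _ _ ha hb =>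
    rw [FunLike.coe_add,
      (S23.isNice_cuspForm_Gamma0 a).qExpansion_add (S23.isNice_cuspForm_Gamma0 b)]
    exact S23.CZ.add_mem ha hb
  | smul c a _ ha =>
    rw [FunLike.coe_smul, (S23.isNice_cuspForm_Gamma0 a).qExpansion_smul]
    exact S23.CZ.smul_mem _ ha

/-- a power series whose coefficients lie in a finitely generated `ℤ`-module is in `CZ`. -/
theorem mem_CZ_of_fg (x : PowerSeries ℂ) (M : Submodule ℤ ℂ) (hM : M.FG)
    (hx : ∀ n, x.coeff n ∈ M) : x ∈ S23.CZ := by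
  classical
  obtain ⟨s, rfl⟩ := hM
  have h1 : ∀ n, ∃ a : ℂ → ℤ, x.coeff n = ∑ c ∈ s, a c • c := by
    intro n
    obtain ⟨a, _, ha⟩ := Submodule.mem_span_finset.1 (hx n)
    exact ⟨a, ha.symm⟩
  choose a ha using h1
  have h2 : x = ∑ c ∈ s, c • PowerSeries.mk (fun n => ((a n c : ℤ) : ℂ)) := by
    ext n
    rw [ha n, map_sum]
    refine Finset.sum_congr rfl fun c _ => ?_
    simp [mul_comm]
  rw [h2]
  refine S23.CZ.sum_mem fun c _ => S23.CZ.smul_mem c (S23.IsIntPS.mem_CZ fun n => ⟨a n c, ?_⟩)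
  simp

/-- conversely. -/
theorem exists_fg_of_mem_CZ (x : PowerSeries ℂ) (hx : x ∈ S23.CZ) :
    ∃ M : Submodule ℤ ℂ, M.FG ∧ ∀ n, x.coeff n ∈ M := by
  unfold S23.CZ at hx
  induction hx using Submodule.span_induction with
  | mem p hp =>
    refine ⟨Submodule.span ℤ {1}, Submodule.fg_span_singleton _, fun n => ?_⟩
    obtain ⟨m, hm⟩ := hp n
    rw [hm, Submodule.mem_span_singleton]
    exact ⟨m, by simp⟩
  | zero => exact ⟨⊥, Submodule.fg_bot, fun n => by simp⟩
  | add a b _ _ ha hb =>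
    obtain ⟨M₁, h₁, hm₁⟩ := ha
    obtain ⟨M₂, h₂, hm₂⟩ := hb
    refine ⟨M₁ ⊔ M₂, h₁.sup h₂, fun n => ?_⟩
    rw [map_add]
    exact Submodule.add_mem_sup (hm₁ n) (hm₂ n)
  | smul c a _ ha =>
    obtain ⟨M, h, hm⟩ := ha
    refine ⟨M.map (LinearMap.mulLeft ℤ c), h.map _, fun n => ?_⟩
    exact ⟨_, hm n, by simp⟩

namespace DenAux

theorem isIntegral_of_hasChar {N : ℕ} [NeZero N] {χ : DirichletCharacter ℂ N}
    (f : CuspForm (Gamma1 N) 1) (hf : HasChar N 1 χ f) :
    IsIntegral CZring (qExpansion 1 f) := by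
  have hm : 0 < Fintype.card (ZMod N)ˣ := Fintype.card_pos
  obtain ⟨g, hg⟩ := exists_Gamma0_pow f hf _ hm (MulChar.pow_card_eq_one χ)
  refine isIntegral_of_pow_mem hm ?_
  rw [← (nice_cusp f).qExpansion_pow, ← hg]
  exact qExpansion_mem_CZ N _ g

theorem isFrac_of_hasChar {N : ℕ} [NeZero N] {χ : DirichletCharacter ℂ N}
    (f : CuspForm (Gamma1 N) 1) (hf : HasChar N 1 χ f) : IsFrac (qExpansion 1 f) := by
  by_cases hχ : χ (-1) = -1
  · have hψ : χ⁻¹ (-1) = -1 := by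
      have := MulChar.inv_apply_eq_inv' χ (-1)
      rw [hχ] at this
      rw [this]
      norm_num
    obtain ⟨E, hE, hEq⟩ := exists_eis3 N χ⁻¹ hψ
    obtain ⟨G, hG⟩ := exists_Gamma0_mul f hf E hE
    refine ⟨qExpansion 1 E, ?_, ?_, ?_⟩
    · refine mem_CZ_of_fg _ (Submodule.span ℤ (Set.range fun a => χ⁻¹ a))
        (Submodule.fg_span (Set.finite_range _)) fun n => ?_
      have := hEq n
      unfold qCoeff at this
      rw [this]
      refine Submodule.sum_mem _ fun m _ => ?_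
      have h2 : χ⁻¹ ((n / m : ℕ) : ZMod N) * (m : ℂ) ^ 2 =
          ((m ^ 2 : ℕ) : ℤ) • χ⁻¹ ((n / m : ℕ) : ZMod N) := by
        simp [mul_comm]
      rw [h2]
      exact Submodule.smul_mem _ _ (Submodule.subset_span ⟨_, rfl⟩)
    · intro h0
      have := hEq 1
      unfold qCoeff at this
      rw [h0] at this
      simp at this
    · rw [mul_comm, ← (nice_cusp f).qExpansion_mul (nice_mod E), ← hG]
      exact qExpansion_mem_CZ N _ G
  · rw [eq_zero_of_not_odd hf hχ, UpperHalfPlane.qExpansion_zero]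
    exact IsFrac.zero

end DenAux

theorem bounded_denominators (N : ℕ) [NeZero N] (g : CuspForm (Gamma1 N) 1)
    (hg : ∀ n, ∃ r : ℚ, qCoeff g n = r) :
    ∃ D : ℕ, D ≠ 0 ∧ ∀ n, ∃ m : ℤ, (D : ℂ) * qCoeff g n = m := by
  classical
  obtain ⟨s, F, hF, hgF⟩ := exists_char_decomp g
  have hx : qExpansion 1 g = ∑ χ ∈ s, qExpansion 1 (F χ) := by
    rw [hgF, qExpansion_sum_cusp]
  have hint : IsIntegral CZring (qExpansion 1 g) := by
    rw [hx]
    exact IsIntegral.sum _ fun χ _ => isIntegral_of_hasChar (F χ) (hF χ)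
  have hfrac : IsFrac (qExpansion 1 g) := by
    rw [hx]
    exact IsFrac.sum _ fun χ _ => isFrac_of_hasChar (F χ) (hF χ)
  obtain ⟨n, e, he, hrel⟩ := exists_rel hint
  obtain ⟨H, hH, hH0, hG⟩ := hfrac
  obtain ⟨D, hD, hint'⟩ := S23.den_core _ hg n e he hrel H _ hH hH0 hG rfl
  refine ⟨D, hD, fun m => ?_⟩
  obtain ⟨a, ha⟩ := hint' m
  exact ⟨a, by rw [← ha]; simp [qCoeff]⟩

end Fermat.Agent.S48
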