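import Fermat.Agent.S48.Forms.Char
import Fermat.Agent.S48.Forms.ToGamma0
import Fermat.Agent.S48.Forms.Eis3
import Fermat.Agent.S23.Descent

/-! # S48 forms (F6): coefficient functionals, `q`-expansion principle, finite dimension

`W_χ = {f | HasChar N 1 χ f}` is a submodule; for `χ` odd, `f ↦ f * E₃^{χ⁻¹,1}` is an injective linear
map `W_χ → S₄(Γ₀ N)` (finite dimensional: `S23.finiteDimensional_cuspForm`); for `χ` even `W_χ = 0`;
`⊤ = ⨆_χ W_χ` by `exists_char_decomp`. -/

set_option autoImplicit false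

namespace Fermat.Agent.S48

open UpperHalfPlane ModularForm CongruenceSubgroup ModularFormClass
open scoped MatrixGroups ModularForm Manifold

variable {N : ℕ} {k : ℤ}

theorem one_mem_strictPeriods_Gamma1 (N : ℕ) :
    (1 : ℝ) ∈ (Subgroup.map (Matrix.SpecialLinearGroup.mapGL ℝ) (Gamma1 N)).strictPeriods := by
  rw [strictPeriods_Gamma1]
  exact AddSubgroup.mem_zmultiples 1

/-- the `n`-th coefficient as a linear functional. -/
noncomputable def coeffL (N : ℕ) [NeZero N] (k : ℤ) (n : ℕ) : CuspForm (Gamma1 N) k →ₗ[ℂ] ℂ where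
  toFun f := qCoeff f n
  map_add' f g := by
    unfold qCoeff
    rw [FunLike.coe_add, ModularForm.qExpansion_add one_pos (one_mem_strictPeriods_Gamma1 N) f g,
      map_add]
  map_smul' c f := by
    unfold qCoeff
    rw [FunLike.coe_smul, ModularForm.qExpansion_smul one_pos (one_mem_strictPeriods_Gamma1 N) c f]
    simp

@[simp] theorem coeffL_apply [NeZero N] (n : ℕ) (f : CuspForm (Gamma1 N) k) :
    coeffL N k n f = qCoeff f n := rfl

theorem eq_zero_of_qCoeff [NeZero N] (f : CuspForm (Gamma1 N) k) (h : ∀ n, qCoeff f n = 0) :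
    f = 0 := by
  have h1 : qExpansion 1 (⇑f) = 0 := PowerSeries.ext (by simpa [qCoeff] using h)
  have h2 := (ModularForm.qExpansion_eq_zero_iff one_pos (one_mem_strictPeriods_Gamma1 N)
    (ModularFormClass.modularForm f)).1 (by simpa using h1)
  have hcoe : (⇑f : ℍ → ℂ) = 0 := by
    have := congrArg (fun F : ModularForm (Gamma1 N) k ↦ (⇑F : ℍ → ℂ)) h2
    simpa using this
  exact DFunLike.coe_injective (hcoe.trans FunLike.coe_zero.symm)

/-- cusp forms have no constant term. -/
theorem qCoeff_zero [NeZero N] (f : CuspForm (Gamma1 N) k) : qCoeff f 0 = 0 :=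
  CuspFormClass.qExpansion_coeff_zero f one_pos (one_mem_strictPeriods_Gamma1 N)

/-- the space of forms with character `χ` -/
def charSub (N : ℕ) (k : ℤ) (χ : DirichletCharacter ℂ N) : Submodule ℂ (CuspForm (Gamma1 N) k) where
  carrier := {f | HasChar N k χ f}
  zero_mem' := fun γ _ => by
    show (⇑(0 : CuspForm (Gamma1 N) k) : ℍ → ℂ) ∣[k] γ = _
    rw [FunLike.coe_zero, SlashAction.zero_slash, smul_zero]
  add_mem' := by
    intro f g hf hg γ hγ
    show (⇑(f + g) : ℍ → ℂ) ∣[k] γ = _ • (⇑(f + g) : ℍ → ℂ)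
    rw [FunLike.coe_add, SlashAction.add_slash, hf γ hγ, hg γ hγ, smul_add]
  smul_mem' := by
    intro c f hf γ hγ
    show (⇑(c • f) : ℍ → ℂ) ∣[k] γ = _ • (⇑(c • f) : ℍ → ℂ)
    rw [FunLike.coe_smul, SL_smul_slash, hf γ hγ, smul_comm]

theorem finiteDimensional_charSub (N : ℕ) [NeZero N] (χ : DirichletCharacter ℂ N) :
    FiniteDimensional ℂ (charSub N 1 χ) := by
  by_cases hχ : χ (-1) = -1
  · -- odd character: multiply by an Eisenstein series of weight 3
    have hψ : χ⁻¹ (-1) = -1 := by
      rw [MulChar.inv_apply_eq_inv', hχ]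
      norm_num
    obtain ⟨E, hE, hEq⟩ := exists_eis3 N χ⁻¹ hψ
    have hE1 : qExpansion 1 (⇑E) ≠ 0 := by
      intro h0
      have h1 := hEq 1
      unfold qCoeff at h1
      rw [h0] at h1
      simp at h1
    have := S23.finiteDimensional_cuspForm N (1 + 3)
    let Φ : CuspForm (Gamma0 N) (1 + 3) →ₗ[ℂ] (ℍ → ℂ) :=
      { toFun := fun g => ⇑g
        map_add' := fun _ _ => rfl
        map_smul' := fun _ _ => rfl }
    let M : charSub N 1 χ →ₗ[ℂ] (ℍ → ℂ) :=
      { toFun := fun f => ⇑(f : CuspForm (Gamma1 N) 1) * ⇑E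
        map_add' := fun f g => by
          show (⇑((f : CuspForm (Gamma1 N) 1) + g) : ℍ → ℂ) * ⇑E = _
          rw [FunLike.coe_add, add_mul]
        map_smul' := fun c f => by
          show (⇑(c • (f : CuspForm (Gamma1 N) 1)) : ℍ → ℂ) * ⇑E = _
          rw [FunLike.coe_smul, smul_mul_assoc]
          rfl }
    have hM : ∀ f, M f ∈ LinearMap.range Φ := by
      intro f
      obtain ⟨g, hg⟩ := exists_Gamma0_mul (f : CuspForm (Gamma1 N) 1) f.2 E hE
      exact ⟨g, hg⟩
    refine FiniteDimensional.of_injective (M.codRestrict (LinearMap.range Φ) hM) ?_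
    refine (injective_iff_map_eq_zero _).mpr fun f hf => ?_
    have hf0 : (⇑(f : CuspForm (Gamma1 N) 1) : ℍ → ℂ) * ⇑E = 0 := congrArg Subtype.val hf
    have h2 := ModularForm.qExpansion_mul_coe one_pos (one_mem_strictPeriods_Gamma1 N)
      (f : CuspForm (Gamma1 N) 1) E
    rw [hf0, qExpansion_zero] at h2
    have h3 := (mul_eq_zero.1 h2.symm).resolve_right hE1
    apply Subtype.ext
    apply eq_zero_of_qCoeff
    intro n
    unfold qCoeff
    rw [h3, map_zero]
  · -- even character: the space is zero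
    have : charSub N 1 χ = ⊥ := by
      rw [eq_bot_iff]
      intro f hf
      have := eq_zero_of_hasChar_of_ne (k := 1) hf (by simpa using hχ)
      exact DFunLike.coe_injective (this.trans FunLike.coe_zero.symm)
    rw [this]
    infer_instance

theorem finiteDimensional_S1 (N : ℕ) [NeZero N] : FiniteDimensional ℂ (CuspForm (Gamma1 N) 1) := by
  have := fun χ => finiteDimensional_charSub N χ
  have htop : (⊤ : Submodule ℂ (CuspForm (Gamma1 N) 1)) = ⨆ χ, charSub N 1 χ := by
    rw [eq_comm, eq_top_iff]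
    intro f _
    obtain ⟨s, F, hF, rfl⟩ := exists_char_decomp f
    exact Submodule.sum_mem _ fun χ _ => Submodule.mem_iSup_of_mem χ (hF χ)
  have : FiniteDimensional ℂ (⊤ : Submodule ℂ (CuspForm (Gamma1 N) 1)) := by
    rw [htop]
    infer_instance
  exact Module.finite_def.2 (Module.Finite.iff_fg.1 this)

end Fermat.Agent.S48
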