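import Fermat.Agent.S48.Forms.Conj
import Fermat.Agent.S48.Forms.FinDim
import Fermat.Agent.S48.Forms.Den

/-! # S48 forms (F8): the coefficients of a form lie in a finitely generated `ℤ`-module

`S23.span_rat_coord_eq_top` (with `coeffL`, `eq_zero_of_qCoeff`, `exists_conj`,
`finiteDimensional_S1`) + `bounded_denominators`. -/

set_option autoImplicit false

namespace Fermat.Agent.S48

open UpperHalfPlane ModularForm CongruenceSubgroup ModularFormClass
open scoped MatrixGroups ModularForm Manifold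

theorem span_rat (N : ℕ) [NeZero N] :
    Submodule.span ℂ {f : CuspForm (Gamma1 N) 1 | ∀ n, ∃ r : ℚ, qCoeff f n = r} = ⊤ := by
  have := finiteDimensional_S1 N
  exact S23.span_rat_coord_eq_top (V := CuspForm (Gamma1 N) 1) (fun n => coeffL N 1 n)
    (fun v hv => eq_zero_of_qCoeff v hv) (fun σ f => exists_conj N f σ)

theorem exists_fg_coeff (N : ℕ) [NeZero N] (f : CuspForm (Gamma1 N) 1) :
    ∃ M : Submodule ℤ ℂ, M.FG ∧ ∀ n, qCoeff f n ∈ M := by
  have hf : f ∈ Submodule.span ℂ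
      {f : CuspForm (Gamma1 N) 1 | ∀ n, ∃ r : ℚ, qCoeff f n = r} := by
    rw [span_rat]
    exact Submodule.mem_top
  induction hf using Submodule.span_induction with
  | mem g hg =>
    obtain ⟨D, hD, hDm⟩ := bounded_denominators N g hg
    refine ⟨Submodule.span ℤ {(D : ℂ)⁻¹}, Submodule.fg_span_singleton _, fun n => ?_⟩
    obtain ⟨m, hm⟩ := hDm n
    rw [Submodule.mem_span_singleton]
    refine ⟨m, ?_⟩
    have hD' : (D : ℂ) ≠ 0 := Nat.cast_ne_zero.2 hD
    rw [zsmul_eq_mul, ← hm]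
    field_simp
  | zero =>
    refine ⟨⊥, Submodule.fg_bot, fun n => ?_⟩
    rw [← coeffL_apply, map_zero]
    exact Submodule.zero_mem _
  | add a b _ _ ha hb =>
    obtain ⟨M₁, h₁, hm₁⟩ := ha
    obtain ⟨M₂, h₂, hm₂⟩ := hb
    refine ⟨M₁ ⊔ M₂, h₁.sup h₂, fun n => ?_⟩
    rw [← coeffL_apply, map_add, coeffL_apply, coeffL_apply]
    exact Submodule.add_mem_sup (hm₁ n) (hm₂ n)
  | smul c a _ ha =>
    obtain ⟨M, h, hm⟩ := ha
    refine ⟨M.map (LinearMap.mulLeft ℤ c), h.map _, fun n => ?_⟩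
    rw [← coeffL_apply, map_smul, coeffL_apply]
    exact ⟨_, hm n, rfl⟩

end Fermat.Agent.S48
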