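import Fermat.Agent.S48.Defs
import Fermat.Agent.S48.Forms.Rankin
import Fermat.Agent.S48.Forms.Neb
import Fermat.Agent.S48.Forms.Integral
import Fermat.Agent.S48.Forms.Few
import Fermat.Agent.S48.ModL.Final

/-!
# S48: the five facts about the modular form `f` used by the core

Each of them is the root of a sub-DAG (see the board, topic S48):
* `eps_neg_one`        (A0, nebentypus)          -> `Forms/Neb*.lean`
* `isIntegral_coeff`   (A1, conjugates + bounded denominators) -> `Forms/Conj*.lean`, `Forms/Int*.lean`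
* `rankin`             (A2)                      -> `Forms/Rankin*.lean`
* `few_values`         (A3 = Deligne–Serre Prop. 5.5) -> `Forms/Few.lean`
* `hasModL`            (MODL, geometric chain)   -> `Fermat/Agent/S48/ModL/`
The owners of the sub-DAGs prove these statements in THEIR files under other names; this file
is edited only by the architect (helper72), who replaces each `sorry` by a one-line citation.
-/

set_option autoImplicit false

namespace Fermat.Agent.S48

open CongruenceSubgroup Polynomial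
open scoped MatrixGroups

local notation "Qbar" => AlgebraicClosure ℚ
local notation "GQ" => (AlgebraicClosure ℚ ≃ₐ[ℚ] AlgebraicClosure ℚ)

variable {N : ℕ} [NeZero N] {ε : DirichletCharacter ℂ N} {f : CuspForm (Gamma1 N) 1}

/-- (A0) -/
theorem eps_neg_one (h : Eigen N ε f) : ε (-1) = -1 :=
  h.eps_neg_one

/-- (A1) -/
theorem isIntegral_coeff (h : Eigen N ε f) (p : ℕ) (hp : p.Prime) (hpN : ¬ p ∣ N) :
    IsIntegral ℤ (ModularFormClass.qCoeff f p) :=
  h.isIntegral p hp hpN

/-- (A2) Rankin, truncated form (helper71). -/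
theorem rankin (h : Eigen N ε f) :
    WeightedUpper
      (fun p => if p ∣ N then 0 else min (‖ModularFormClass.qCoeff f p‖ ^ 2) 4) 1 :=
  Rankin.rankin_min h 4 (by norm_num)

/-- (A3) Deligne–Serre Prop. 5.5. -/
theorem few_values (h : Eigen N ε f) (η : ℝ) (hη : 0 < η) :
    ∃ Y : Finset ℂ, UpperDens {p | ¬ p ∣ N ∧ ModularFormClass.qCoeff f p ∉ Y} η :=
  h.few_values η hη

/-- (MODL) Deligne–Serre Thm 6.7 for `k = 1`, at the auxiliary levels `N * 2` and `N * 3`
(the curve of helper48's blueprint has level `M = N * c * ℓ` and needs `2 ∣ M` or `3 ∣ M`). -/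
theorem hasModL (h : Eigen N ε f) (a e : ℕ → OO)
    (ha : ∀ p : ℕ, p.Prime → ¬ p ∣ N → (a p : ℂ) = ModularFormClass.qCoeff f p)
    (he : ∀ p : ℕ, (e p : ℂ) = ε (p : ZMod N)) (c : ℕ) (hc : c = 2 ∨ c = 3) :
    ∃ ℓ₀ : ℕ, ∀ ℓ : ℕ, ℓ.Prime → ℓ₀ ≤ ℓ → HasModL (N * c) a e ℓ :=
  ModL.hasModL h a e ha he c hc

end Fermat.Agent.S48
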