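import Fermat.Agent.S48.Forms.Defs

/-! # S48 forms (F1): diamond operators and decomposition into characters

`Γ₁(N)` is normal in `Γ₀(N)` with quotient `(ℤ/N)ˣ` via `γ ↦ γ 1 1`. -/

set_option autoImplicit false

namespace Fermat.Agent.S48

open UpperHalfPlane ModularForm CongruenceSubgroup ModularFormClass
open scoped MatrixGroups ModularForm Manifold

variable {N : ℕ} {k : ℤ}

theorem exists_mem_Gamma0_of_coprime (N M : ℕ) (d : ℤ) (hd : IsCoprime d (N * M : ℤ)) :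
    ∃ γ : SL(2, ℤ), γ ∈ Gamma0 (N * M) ∧ γ 1 1 = d := by
  obtain ⟨a, b, hab⟩ := hd
  have hdet : (!![a, -b; (N * M : ℤ), d]).det = 1 := by
    rw [Matrix.det_fin_two_of]
    linear_combination hab
  let γ : SL(2, ℤ) := ⟨!![a, -b; (N * M : ℤ), d], hdet⟩
  refine ⟨γ, ?_, ?_⟩
  · rw [Gamma0_mem]
    have h0 := ZMod.natCast_self (N * M)
    push_cast at h0
    simpa [γ] using h0
  · simp [γ]

/-- the lower right entry is multiplicative on `Γ₀(N)` -/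
theorem Gamma0_mul_entry {γ γ' : SL(2, ℤ)} (hγ : γ ∈ Gamma0 N) :
    (((γ * γ') 1 1 : ℤ) : ZMod N) = ((γ 1 1 : ℤ) : ZMod N) * ((γ' 1 1 : ℤ) : ZMod N) := by
  rw [Gamma0_mem] at hγ
  rw [Matrix.SpecialLinearGroup.coe_mul, Matrix.mul_apply, Fin.sum_univ_two]
  push_cast
  rw [hγ, zero_mul, zero_add]

theorem Gamma0_entry_mul_inv {γ : SL(2, ℤ)} (hγ : γ ∈ Gamma0 N) :
    ((γ 1 1 : ℤ) : ZMod N) * ((γ⁻¹ 1 1 : ℤ) : ZMod N) = 1 := by
  rw [← Gamma0_mul_entry hγ, mul_inv_cancel]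
  simp

theorem Gamma0_entry_00 {γ : SL(2, ℤ)} (hγ : γ ∈ Gamma0 N) :
    ((γ 0 0 : ℤ) : ZMod N) * ((γ 1 1 : ℤ) : ZMod N) = 1 := by
  rw [Gamma0_mem] at hγ
  have h := γ.det_coe
  rw [Matrix.det_fin_two] at h
  have h2 := congrArg (fun z : ℤ => (z : ZMod N)) h
  push_cast at h2
  rw [hγ, mul_zero, sub_zero] at h2
  exact h2

theorem mem_Gamma1_of_entry {γ : SL(2, ℤ)} (hγ : γ ∈ Gamma0 N)
    (h : ((γ 1 1 : ℤ) : ZMod N) = 1) : γ ∈ Gamma1 N := by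
  rw [Gamma1_mem]
  refine ⟨?_, h, Gamma0_mem.1 hγ⟩
  have := Gamma0_entry_00 hγ
  rwa [h, mul_one] at this

theorem Gamma1_le_Gamma0' {γ : SL(2, ℤ)} (hγ : γ ∈ Gamma1 N) : γ ∈ Gamma0 N :=
  Gamma0_mem.2 ((Gamma1_mem N γ).1 hγ).2.2

theorem conj_mem_Gamma1 {γ δ : SL(2, ℤ)} (hγ : γ ∈ Gamma0 N) (hδ : δ ∈ Gamma1 N) :
    γ * δ * γ⁻¹ ∈ Gamma1 N := by
  have hδ0 := Gamma1_le_Gamma0' hδ
  apply mem_Gamma1_of_entry ((Gamma0 N).mul_mem ((Gamma0 N).mul_mem hγ hδ0) ((Gamma0 N).inv_mem hγ))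
  rw [Gamma0_mul_entry ((Gamma0 N).mul_mem hγ hδ0), Gamma0_mul_entry hγ,
    ((Gamma1_mem N δ).1 hδ).2.1, mul_one, Gamma0_entry_mul_inv hγ]

open ConjAct Pointwise in
theorem conj_Gamma1_eq {γ : SL(2, ℤ)} (hγ : γ ∈ Gamma0 N) :
    toConjAct (Matrix.SpecialLinearGroup.mapGL ℝ γ)⁻¹ •
      ((Gamma1 N).map (Matrix.SpecialLinearGroup.mapGL ℝ)) =
      (Gamma1 N).map (Matrix.SpecialLinearGroup.mapGL ℝ) := by
  ext x
  rw [Subgroup.mem_pointwise_smul_iff_inv_smul_mem, ConjAct.smul_def]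
  simp only [← map_inv, inv_inv, ofConjAct_toConjAct]
  constructor
  · rintro ⟨δ, hδ, h⟩
    refine ⟨γ⁻¹ * δ * γ, ?_, ?_⟩
    · have := conj_mem_Gamma1 ((Gamma0 N).inv_mem hγ) hδ
      rwa [inv_inv] at this
    · rw [map_mul, map_mul, h, map_inv]
      group
  · rintro ⟨δ, hδ, rfl⟩
    exact ⟨γ * δ * γ⁻¹, conj_mem_Gamma1 hγ hδ, by rw [map_mul, map_mul]⟩

theorem exists_cuspForm_of_eq {Γ Γ' : Subgroup (GL (Fin 2) ℝ)} (h : Γ' = Γ) (f : CuspForm Γ' k) :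
    ∃ g : CuspForm Γ k, (⇑g : ℍ → ℂ) = ⇑f := by
  subst h
  exact ⟨f, rfl⟩

theorem exists_modularForm_of_eq {Γ Γ' : Subgroup (GL (Fin 2) ℝ)} (h : Γ' = Γ)
    (f : ModularForm Γ' k) : ∃ g : ModularForm Γ k, (⇑g : ℍ → ℂ) = ⇑f := by
  subst h
  exact ⟨f, rfl⟩

theorem exists_cuspForm_slash (f : CuspForm (Gamma1 N) k) (γ : SL(2, ℤ)) (hγ : γ ∈ Gamma0 N) :
    ∃ g : CuspForm (Gamma1 N) k, (⇑g : ℍ → ℂ) = ⇑f ∣[k] γ :=
  exists_cuspForm_of_eq (conj_Gamma1_eq hγ)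
    (CuspForm.translate f (Matrix.SpecialLinearGroup.mapGL ℝ γ))

theorem exists_modularForm_slash (f : ModularForm (Gamma1 N) k) (γ : SL(2, ℤ))
    (hγ : γ ∈ Gamma0 N) : ∃ g : ModularForm (Gamma1 N) k, (⇑g : ℍ → ℂ) = ⇑f ∣[k] γ :=
  exists_modularForm_of_eq (conj_Gamma1_eq hγ)
    (ModularForm.translate f (Matrix.SpecialLinearGroup.mapGL ℝ γ))

theorem slash_eq_of_congr (f : CuspForm (Gamma1 N) k) (γ γ' : SL(2, ℤ)) (hγ : γ ∈ Gamma0 N)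
    (hγ' : γ' ∈ Gamma0 N) (h : ((γ 1 1 : ℤ) : ZMod N) = ((γ' 1 1 : ℤ) : ZMod N)) :
    (⇑f : ℍ → ℂ) ∣[k] γ = ⇑f ∣[k] γ' := by
  have hmem : γ * γ'⁻¹ ∈ Gamma1 N := by
    apply mem_Gamma1_of_entry ((Gamma0 N).mul_mem hγ ((Gamma0 N).inv_mem hγ'))
    rw [Gamma0_mul_entry hγ, h, Gamma0_entry_mul_inv hγ']
  have h1 : (⇑f : ℍ → ℂ) ∣[k] (γ * γ'⁻¹) = ⇑f :=
    SlashInvariantFormClass.slash_action_eq f _ (Subgroup.mem_map_of_mem _ hmem)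
  calc (⇑f : ℍ → ℂ) ∣[k] γ = ⇑f ∣[k] ((γ * γ'⁻¹) * γ') := by rw [inv_mul_cancel_right]
    _ = ⇑f ∣[k] γ' := by rw [SlashAction.slash_mul, h1]

theorem exists_mem_Gamma0_of_unit [NeZero N] (u : (ZMod N)ˣ) :
    ∃ γ : SL(2, ℤ), γ ∈ Gamma0 N ∧ ((γ 1 1 : ℤ) : ZMod N) = u := by
  obtain ⟨γ, hγ, hd⟩ := exists_mem_Gamma0_of_coprime N 1 ((u : ZMod N).val : ℤ) (by
    have := ZMod.val_coe_unit_coprime u
    rw [← Nat.isCoprime_iff_coprime] at this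
    simpa using this)
  rw [mul_one] at hγ
  refine ⟨γ, hγ, ?_⟩
  rw [hd]
  simp

/-- `f = ∑_χ f_χ`, `f_χ = φ(N)⁻¹ ∑_d χ(d)⁻¹ ⟨d⟩ f`. -/
theorem exists_char_decomp [NeZero N] (f : CuspForm (Gamma1 N) k) :
    ∃ (s : Finset (DirichletCharacter ℂ N)) (F : DirichletCharacter ℂ N → CuspForm (Gamma1 N) k),
      (∀ χ, HasChar N k χ (F χ)) ∧ f = ∑ χ ∈ s, F χ := by
  classical
  choose γ hγ hγd using exists_mem_Gamma0_of_unit (N := N)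
  choose G hG using fun u => exists_cuspForm_slash f (γ u) (hγ u)
  set φ : ℂ := (N.totient : ℂ) with hφ
  have hφ0 : φ ≠ 0 := by
    rw [hφ]
    exact_mod_cast (Nat.totient_pos.2 (NeZero.pos N)).ne'
  refine ⟨Finset.univ, fun χ => φ⁻¹ • ∑ u : (ZMod N)ˣ, χ ((u⁻¹ : (ZMod N)ˣ) : ZMod N) • G u,
    fun χ δ hδ => ?_, ?_⟩
  · -- the character
    set v : (ZMod N)ˣ := Units.mkOfMulEqOne _ _ (Gamma0_entry_mul_inv hδ) with hv
    have hvd : ((δ 1 1 : ℤ) : ZMod N) = v := rfl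
    have hstep : ∀ u : (ZMod N)ˣ, (⇑(G u) : ℍ → ℂ) ∣[k] δ = ⇑(G (u * v)) := by
      intro u
      rw [hG, hG, ← SlashAction.slash_mul]
      apply slash_eq_of_congr f _ _ ((Gamma0 N).mul_mem (hγ u) hδ) (hγ _)
      rw [Gamma0_mul_entry (hγ u), hγd, hγd, hvd, Units.val_mul]
    have hcoe : ∀ c : (ZMod N)ˣ → ℂ, (⇑(φ⁻¹ • ∑ u : (ZMod N)ˣ, c u • G u) : ℍ → ℂ) =
        φ⁻¹ • ∑ u : (ZMod N)ˣ, c u • (⇑(G u) : ℍ → ℂ) := by
      intro c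
      rw [FunLike.coe_smul, FunLike.coe_sum]
      rfl
    rw [hcoe, SL_smul_slash, SlashAction.sum_slash, hvd, smul_comm]
    congr 1
    rw [Finset.smul_sum]
    refine Fintype.sum_equiv (Equiv.mulRight v) _ _ fun u => ?_
    rw [SL_smul_slash, hstep, Equiv.coe_mulRight, smul_smul, ← map_mul, ← Units.val_mul]
    congr 3
    rw [mul_inv_rev, mul_inv_cancel_left]
  · -- the sum
    apply DFunLike.coe_injective
    rw [← Finset.smul_sum, Finset.sum_comm]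
    simp only [← Finset.sum_smul]
    have hsum : ∀ u : (ZMod N)ˣ, ∑ χ : DirichletCharacter ℂ N, χ ((u⁻¹ : (ZMod N)ˣ) : ZMod N) =
        if u = 1 then φ else 0 := by
      intro u
      rw [DirichletCharacter.sum_characters_eq ℂ]
      by_cases hu : u = 1
      · simp [hu, hφ]
      · have : ((u⁻¹ : (ZMod N)ˣ) : ZMod N) ≠ 1 := by
          intro h1
          apply hu
          have : u⁻¹ = 1 := Units.ext h1
          simpa using this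
        simp [hu, this]
    simp only [hsum]
    rw [Finset.sum_eq_single 1]
    · rw [if_pos rfl, smul_smul, inv_mul_cancel₀ hφ0, one_smul, hG]
      have := slash_eq_of_congr f (γ 1) 1 (hγ 1) (Gamma0 N).one_mem (by rw [hγd]; simp)
      rw [this, SlashAction.slash_one]
    · intro u _ hu
      rw [if_neg hu, zero_smul]
    · intro h; exact absurd (Finset.mem_univ _) h

/-- `-1 ∈ Γ₀(N)` acts by `(-1)^k`. -/
theorem eq_zero_of_hasChar_of_ne {χ : DirichletCharacter ℂ N} {F : ℍ → ℂ} (h : HasChar N k χ F)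
    (hχ : χ (-1) ≠ (-1) ^ k) : F = 0 := by
  have h1 := h (-1) (by rw [Gamma0_mem]; simp)
  have h2 : F ∣[k] (-1 : SL(2, ℤ)) = ((-1 : ℂ) ^ k) • F := by
    ext z
    rw [SL_slash_apply]
    have e1 : (-1 : SL(2, ℤ)) • z = z := by
      have := ModularGroup.SL_neg_smul 1 z
      rwa [one_smul] at this
    rw [e1]
    have e2 : ((-1 : ℂ) ^ k)⁻¹ = (-1) ^ k := by
      rw [← inv_zpow]
      norm_num
    simp [denom, mul_comm, e2]
  rw [h2] at h1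
  have h3 : ((((-1 : SL(2, ℤ)) 1 1 : ℤ)) : ZMod N) = -1 := by simp
  rw [h3] at h1
  have h4 : (χ (-1) - (-1) ^ k) • F = 0 := by rw [sub_smul, h1, sub_self]
  exact (smul_eq_zero.1 h4).resolve_left (sub_ne_zero.2 hχ)

end Fermat.Agent.S48
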