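import Fermat.Agent.S48.Forms.Defs
import Fermat.Agent.S23.Quot

/-! # S48 forms (F4): quotient lemma on `Γ₁(N)`

Copy of `S23.exists_cuspForm_of_integral` (`Fermat/Agent/S23/QuotForm.lean`) with the monic relation
`X^m - P`: `S23.exists_mdiff_quot` gives `g` holomorphic with `g H = G`, `g^m = P`; invariance under
`Γ₁(N)` by cancelling `H` (`S23.eq_zero_of_mul_eq_zero`); `(g ∣ δ)^m = P ∣ δ → 0` at `i∞` for all
`δ ∈ SL₂(ℤ)` (`S23.isZeroAtImInfty_of_monic_root`). -/

set_option autoImplicit false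

namespace Fermat.Agent.S48

open UpperHalfPlane ModularForm CongruenceSubgroup ModularFormClass
open scoped MatrixGroups ModularForm Manifold

theorem exists_cuspForm_of_pow (N : ℕ) [NeZero N] (k w : ℤ) (m : ℕ) (hm : 0 < m)
    (H : ModularForm (Gamma1 N) w) (hH : H ≠ 0) (G : CuspForm (Gamma1 N) (k + w))
    (P : CuspForm (Gamma1 N) (m * k)) (hrel : ∀ z, G z ^ m = P z * H z ^ m) :
    ∃ g : CuspForm (Gamma1 N) k, ∀ z, g z * H z = G z := by
  have hH0 : (⇑H : ℍ → ℂ) ≠ 0 := fun h => hH (DFunLike.coe_injective (by simpa using h))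
  have hsum : ∀ (Q : ℍ → ℂ) (a : ℕ → ℂ) (z : ℍ), ∑ j ∈ Finset.range m,
      (fun j : ℕ => if j = 0 then (fun z => - Q z) else (0 : ℍ → ℂ)) j z * a j = - Q z * a 0 := by
    intro Q a z
    rw [Finset.sum_eq_single 0]
    · simp
    · intro j _ hj
      simp [hj]
    · intro h
      exact absurd (Finset.mem_range.mpr hm) h
  have hrel' : ∀ z, G z ^ m + ∑ j ∈ Finset.range m,
      (fun j : ℕ => if j = 0 then (fun z => - P z) else (0 : ℍ → ℂ)) j z * G z ^ j * H z ^ (m - j)
        = 0 := by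
    intro z
    have := hsum (⇑P) (fun j => G z ^ j * H z ^ (m - j)) z
    simp only [← mul_assoc] at this
    rw [this, hrel z]
    simp
  obtain ⟨g, hgd, hgH, hgrel⟩ := S23.exists_mdiff_quot (n := m) (u := ⇑H) (v := ⇑G)
    (c := fun j : ℕ => if j = 0 then (fun z => - P z) else (0 : ℍ → ℂ)) H.holo' G.holo'
    (fun i => by
      by_cases hi : i = 0
      · simp only [hi, if_true]
        exact P.holo'.neg
      · simp only [hi, if_false]
        exact mdifferentiable_const) hH0 hrel'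
  have hgP : ∀ z, g z ^ m = P z := by
    intro z
    have h1 := hgrel z
    rw [hsum (⇑P) (fun j => g z ^ j) z] at h1
    simp only [pow_zero, mul_one] at h1
    linear_combination h1
  have hinv : ∀ γ : SL(2, ℤ), γ ∈ Gamma1 N → g ∣[k] γ = g := by
    intro γ hγ
    have h1 : (⇑H ∣[w] γ) = ⇑H := H.slash_action_eq' _ ⟨γ, hγ, rfl⟩
    have h2 : (⇑G ∣[k + w] γ) = ⇑G := G.slash_action_eq' _ ⟨γ, hγ, rfl⟩
    have h3 : g * ⇑H = ⇑G := funext hgH
    have h4 : (g ∣[k] γ) * ⇑H = ⇑G := by
      rw [← h2, ← h3, ModularForm.mul_slash_SL2, h1]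
    have h5 : (g ∣[k] γ) - g = 0 := by
      refine S23.eq_zero_of_mul_eq_zero ((hgd.slash k _).sub hgd) H.holo' hH0 fun z => ?_
      have := congrFun h4 z
      simp only [Pi.mul_apply] at this
      rw [Pi.sub_apply, sub_mul]
      exact sub_eq_zero.mpr (this.trans (hgH z).symm)
    exact sub_eq_zero.mp h5
  refine ⟨{ toFun := g
            slash_action_eq' := ?_
            holo' := hgd
            zero_at_cusps' := ?_ }, hgH⟩
  · rintro _ ⟨γ, hγ, rfl⟩
    exact hinv γ hγ
  · intro c hc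
    have hPc := P.zero_at_cusps' hc
    rw [Subgroup.IsArithmetic.isCusp_iff_isCusp_SL2Z] at hc
    rw [OnePoint.isZeroAt_iff_forall_SL2Z hc] at hPc ⊢
    intro δ hδ
    have hPδ := hPc δ hδ
    refine S23.isZeroAtImInfty_of_monic_root (n := m) hm
      (c := fun j : ℕ => if j = 0 then (fun z => - (⇑P ∣[(m : ℤ) * k] δ) z) else (0 : ℍ → ℂ))
      (fun j _ => ?_) (fun z => ?_)
    · by_cases hj : j = 0
      · simp only [hj, if_true]
        exact hPδ.neg
      · simp only [hj, if_false]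
        exact Filter.zero_zeroAtFilter _
    · rw [hsum (⇑P ∣[(m : ℤ) * k] δ) (fun j => (g ∣[k] δ) z ^ j) z]
      simp only [pow_zero, mul_one]
      rw [ModularForm.SL_slash_apply, ModularForm.SL_slash_apply, mul_pow, hgP, ← zpow_natCast,
        ← zpow_mul]
      have : -k * (m : ℤ) = -((m : ℤ) * k) := by ring
      rw [this]
      ring

end Fermat.Agent.S48
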