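import Fermat.Agent.S48.Forms.Char
import Fermat.Agent.S48.Forms.ToGamma0
import Fermat.Agent.S48.Forms.Eis3
import Fermat.Agent.S48.Forms.Quot
import Fermat.Agent.S23.ConjFinal
import Fermat.Agent.S23.Nice

/-! # S48 forms (F5): `Aut(ℂ)` acts on `S₁(Γ₁(N))` through the `q`-coefficients

`f` with character `χ`.  If `χ(-1) ≠ -1` then `f = 0`.  Otherwise `H = E₃^{χ⁻¹,1}`,
`G = f H ∈ S₄(Γ₀ N)`, `P = f^m ∈ S_m(Γ₀ N)` (`m = φ(N)`, `χ^m = 1`), `G^m = P H^m`.
`S23.exists_conj` gives `G^σ`, `P^σ`; `H^σ = E₃^{(σχ)⁻¹,1}` (same formula for the coefficients).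
The relation is transported by `PowerSeries.map σ` (`S23.IsNice` API: `qExpansion` is an injective
ring hom on nice functions).  `exists_cuspForm_of_pow` gives `g` with `g H^σ = G^σ`; cancel
`qExpansion H^σ ≠ 0` in `ℂ⟦X⟧`; character of `g` by cancelling `H^σ`. -/

set_option autoImplicit false

namespace Fermat.Agent.S48

open UpperHalfPlane ModularForm CongruenceSubgroup ModularFormClass
open scoped MatrixGroups ModularForm Manifold

open Fermat.Agent.S23 (IsNice)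

theorem isNice_Gamma1 {N : ℕ} {k : ℤ} (f : ModularForm (Gamma1 N) k) : IsNice f :=
  S23.isNice_of_modularForm (by simp [strictPeriods_Gamma1]) f

theorem isNice_cuspForm_Gamma1 {N : ℕ} {k : ℤ} (f : CuspForm (Gamma1 N) k) : IsNice f where
  holo := f.holo'
  per := SlashInvariantFormClass.periodic_comp_ofComplex f (by simp [strictPeriods_Gamma1])
  bdd := OnePoint.isBoundedAt_infty_iff.mp
    (ModularFormClass.bdd_at_cusps f (Subgroup.isCusp_of_mem_strictPeriods one_pos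
      (by simp [strictPeriods_Gamma1])))

theorem isUnit_of_mem_Gamma0 {N : ℕ} {γ : SL(2, ℤ)} (hγ : γ ∈ Gamma0 N) :
    IsUnit ((γ 1 1 : ℤ) : ZMod N) := by
  have hdet := Matrix.det_fin_two γ.1
  rw [γ.2] at hdet
  have hc : ((γ 1 0 : ℤ) : ZMod N) = 0 := Gamma0_mem.1 hγ
  have h1 : ((γ 0 0 : ℤ) : ZMod N) * ((γ 1 1 : ℤ) : ZMod N) = 1 := by
    have := congrArg (fun x : ℤ => (x : ZMod N)) hdet
    simp only [Int.cast_one, Int.cast_sub, Int.cast_mul] at this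
    rw [show ((γ.1 1 0 : ℤ) : ZMod N) = 0 from hc, mul_zero, sub_zero] at this
    exact this.symm
  exact IsUnit.of_mul_eq_one_right _ h1

theorem hasChar_zero (N : ℕ) (k : ℤ) (χ : DirichletCharacter ℂ N) : HasChar N k χ 0 := by
  intro γ _
  rw [SlashAction.zero_slash, smul_zero]

theorem qExpansion_eq_map_iff {F G : ℍ → ℂ} (σ : ℂ →+* ℂ) :
    qExpansion 1 G = (qExpansion 1 F).map σ ↔ ∀ n, qCoeff G n = σ (qCoeff F n) := by
  constructor
  · intro h n
    rw [qCoeff, h, PowerSeries.coeff_map, qCoeff]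
  · intro h
    ext n
    rw [PowerSeries.coeff_map]
    exact h n

theorem exists_conj_of_hasChar (N : ℕ) [NeZero N] (χ : DirichletCharacter ℂ N)
    (f : CuspForm (Gamma1 N) 1) (hf : HasChar N 1 χ f) (σ : ℂ →+* ℂ) :
    ∃ g : CuspForm (Gamma1 N) 1, HasChar N 1 (χ.ringHomComp σ) g ∧
      ∀ n, qCoeff g n = σ (qCoeff f n) := by
  by_cases hχ : χ (-1) = -1
  swap
  · have h0 : (⇑f : ℍ → ℂ) = 0 := eq_zero_of_hasChar_of_ne hf (by simpa using hχ)
    refine ⟨0, ?_, fun n => ?_⟩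
    · rw [FunLike.coe_zero]
      exact hasChar_zero _ _ _
    · rw [FunLike.coe_zero, h0, qCoeff, qExpansion_zero]
      simp
  -- the Eisenstein series
  have hψ : χ⁻¹ (-1) = -1 := by
    rw [MulChar.inv_apply_eq_inv', hχ]
    norm_num
  have hψ' : (χ.ringHomComp σ)⁻¹ (-1) = -1 := by
    rw [MulChar.inv_apply_eq_inv', MulChar.ringHomComp_apply, hχ]
    simp
  obtain ⟨H, hH, hHq⟩ := exists_eis3 N χ⁻¹ hψ
  obtain ⟨H', hH', hHq'⟩ := exists_eis3 N (χ.ringHomComp σ)⁻¹ hψ'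
  have hHH' : qExpansion 1 H' = (qExpansion 1 H).map σ := by
    rw [qExpansion_eq_map_iff]
    intro n
    rw [hHq, hHq', map_sum]
    refine Finset.sum_congr rfl fun m _ => ?_
    rw [MulChar.ringHomComp_inv, MulChar.ringHomComp_apply, map_mul, map_pow, map_natCast σ m]
  have hH'q0 : qExpansion 1 H' ≠ 0 := by
    intro h
    have h1 := hHq' 1
    rw [qCoeff, h] at h1
    simp at h1
  have hH'0 : H' ≠ 0 := by
    rintro rfl
    apply hH'q0
    rw [FunLike.coe_zero, qExpansion_zero]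
  -- `G = f H`, `P = f ^ m`
  obtain ⟨G, hG⟩ := exists_Gamma0_mul f hf H hH
  have hm : 0 < Fintype.card (ZMod N)ˣ := Fintype.card_pos
  obtain ⟨P, hP⟩ := exists_Gamma0_pow f hf (Fintype.card (ZMod N)ˣ) hm (MulChar.pow_card_eq_one χ)
  obtain ⟨G', hG'⟩ := S23.exists_conj N _ σ G
  obtain ⟨P', hP'⟩ := S23.exists_conj N _ σ P
  obtain ⟨G₁, hG₁, hG₁c⟩ := exists_Gamma1_of_Gamma0 G'
  obtain ⟨P₁, hP₁, -⟩ := exists_Gamma1_of_Gamma0 P'
  have nf := isNice_cuspForm_Gamma1 f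
  have nH := isNice_Gamma1 H
  have nH' := isNice_Gamma1 H'
  have nG' := S23.isNice_cuspForm_Gamma0 G'
  have nP' := S23.isNice_cuspForm_Gamma0 P'
  have hGq : qExpansion 1 G = qExpansion 1 f * qExpansion 1 H := by
    rw [hG, nf.qExpansion_mul nH]
  have hPq : qExpansion 1 P = qExpansion 1 f ^ Fintype.card (ZMod N)ˣ := by
    rw [hP, nf.qExpansion_pow]
  have hrel : (⇑G' : ℍ → ℂ) ^ Fintype.card (ZMod N)ˣ =
      ⇑P' * (⇑H' : ℍ → ℂ) ^ Fintype.card (ZMod N)ˣ := by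
    rw [← sub_eq_zero, ← ((nG'.pow _).sub (nP'.mul (nH'.pow _))).qExpansion_eq_zero_iff,
      sub_eq_add_neg, (nG'.pow _).qExpansion_add (nP'.mul (nH'.pow _)).neg]
    have : -(⇑P' * (⇑H' : ℍ → ℂ) ^ Fintype.card (ZMod N)ˣ) =
        (-1 : ℂ) • (⇑P' * (⇑H' : ℍ → ℂ) ^ Fintype.card (ZMod N)ˣ) := by
      ext z; simp
    rw [this, (nP'.mul (nH'.pow _)).qExpansion_smul, nG'.qExpansion_pow,
      nP'.qExpansion_mul (nH'.pow _), nH'.qExpansion_pow, hG', hP', hHH', hGq, hPq]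
    simp only [map_mul, map_pow, mul_pow]
    rw [neg_one_smul, add_neg_cancel]
  obtain ⟨g, hg⟩ := exists_cuspForm_of_pow N 1 3 (Fintype.card (ZMod N)ˣ) hm H' hH'0 G₁ P₁
    (fun z => by
      have := congrFun hrel z
      rw [hG₁, hP₁]
      simpa using this)
  have ng := isNice_cuspForm_Gamma1 g
  have hgH : (⇑g : ℍ → ℂ) * ⇑H' = ⇑G' := by
    ext z
    rw [← hG₁]
    exact hg z
  refine ⟨g, ?_, ?_⟩
  · intro γ hγ
    obtain ⟨gγ, hgγ⟩ := exists_cuspForm_slash g γ hγ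
    have hu := isUnit_of_mem_Gamma0 hγ
    have hcc : (χ.ringHomComp σ) ((γ 1 1 : ℤ) : ZMod N) *
        (χ.ringHomComp σ)⁻¹ ((γ 1 1 : ℤ) : ZMod N) = 1 := by
      rw [← MulChar.mul_apply, mul_inv_cancel, MulChar.one_apply hu]
    have h1 := mul_slash_SL2 1 3 γ (⇑g) (⇑H')
    have h2 : (⇑G' : ℍ → ℂ) ∣[(1 + 3 : ℤ)] γ = ⇑G' := by
      have := hG₁c γ hγ
      rwa [MulChar.one_apply hu, one_smul, hG₁] at this
    rw [hgH, h2, hH' γ hγ, ← hgγ] at h1
    rw [← hgγ, ← sub_eq_zero]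
    refine S23.eq_zero_of_mul_eq_zero (u := ⇑H') ?_ H'.holo' ?_ fun z => ?_
    · exact gγ.holo'.sub (ng.smul _).holo
    · intro h
      apply hH'q0
      rw [h, qExpansion_zero]
    · have h3 := congrFun h1 z
      have h4 := congrFun hgH z
      simp only [Pi.mul_apply, Pi.smul_apply, smul_eq_mul, Pi.sub_apply] at h3 h4 ⊢
      linear_combination (-(χ.ringHomComp σ) ((γ 1 1 : ℤ) : ZMod N)) * h4 -
        (χ.ringHomComp σ) ((γ 1 1 : ℤ) : ZMod N) * h3 - gγ z * H' z * hcc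
  · rw [← qExpansion_eq_map_iff]
    apply mul_right_cancel₀ hH'q0
    rw [← ng.qExpansion_mul nH', hgH, hG', hGq, map_mul, hHH']

theorem qCoeff_sum_cuspForm {N : ℕ} {k : ℤ} {ι : Type*} (s : Finset ι)
    (F : ι → CuspForm (Gamma1 N) k) (n : ℕ) :
    qCoeff (⇑(∑ i ∈ s, F i)) n = ∑ i ∈ s, qCoeff (F i) n := by
  have h1 : (⇑(∑ i ∈ s, F i) : ℍ → ℂ) = ∑ i ∈ s, (⇑(F i) : ℍ → ℂ) := by
    classical
    induction s using Finset.induction_on with
    | empty => simp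
    | insert a s ha ih => rw [Finset.sum_insert ha, Finset.sum_insert ha, FunLike.coe_add, ih]
  rw [qCoeff, h1, IsNice.qExpansion_sum s fun i _ => isNice_cuspForm_Gamma1 (F i), map_sum]
  rfl

theorem exists_conj (N : ℕ) [NeZero N] (f : CuspForm (Gamma1 N) 1) (σ : ℂ →+* ℂ) :
    ∃ g : CuspForm (Gamma1 N) 1, ∀ n, qCoeff g n = σ (qCoeff f n) := by
  obtain ⟨s, F, hF, rfl⟩ := exists_char_decomp f
  choose g _ hg using fun χ => exists_conj_of_hasChar N χ (F χ) (hF χ) σ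
  refine ⟨∑ χ ∈ s, g χ, fun n => ?_⟩
  rw [qCoeff_sum_cuspForm, qCoeff_sum_cuspForm, map_sum]
  exact Finset.sum_congr rfl fun χ _ => hg χ n

/-- the conjugate of an eigenform is an eigenform. -/
theorem Eigen.conj {N : ℕ} [NeZero N] {ε : DirichletCharacter ℂ N} {f : CuspForm (Gamma1 N) 1}
    (h : Eigen N ε f) (σ : ℂ →+* ℂ) :
    ∃ g : CuspForm (Gamma1 N) 1, Eigen N (ε.ringHomComp σ) g ∧
      ∀ n, qCoeff g n = σ (qCoeff f n) := by
  obtain ⟨g, hg⟩ := exists_conj N f σ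
  refine ⟨g, ⟨?_, fun p hp hpN n => ?_⟩, hg⟩
  · rw [hg, h.one, map_one]
  · have h1 := congrArg σ (h.hecke p hp hpN n)
    rw [map_add, map_mul, map_mul] at h1
    simp only [hg, MulChar.ringHomComp_apply]
    rw [← h1]
    congr 2
    split_ifs
    · rfl
    · rw [map_zero]

end Fermat.Agent.S48
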