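import Fermat.Agent.S48.Defs

/-! # S48 forms: nebentypus -/

set_option autoImplicit false

namespace Fermat.Agent.S48

open UpperHalfPlane ModularForm CongruenceSubgroup ModularFormClass
open scoped MatrixGroups ModularForm Manifold

/-- `F` transforms under `Γ₀(N)` with character `χ` in weight `k`:
`F ∣[k] γ = χ(d) F` for `γ = (a b; c d) ∈ Γ₀(N)`. -/
def HasChar (N : ℕ) (k : ℤ) (χ : DirichletCharacter ℂ N) (F : ℍ → ℂ) : Prop :=
  ∀ γ : SL(2, ℤ), γ ∈ Gamma0 N → F ∣[k] γ = χ ((γ 1 1 : ℤ) : ZMod N) • F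

end Fermat.Agent.S48
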