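import Fermat.Agent.S48.Forms.Char
import Fermat.Prelude.Thm_ModularForm_heckeT_slash_eq_self_of_mem_Gamma0
import Fermat.Prelude.Thm_ModularForm_mdifferentiable_heckeT
import Fermat.Prelude.Thm_ModularForm_mdifferentiable_heckeU
import Fermat.Prelude.Thm_CuspFormClass_isZeroAt_heckeT
import Fermat.Prelude.Thm_CuspFormClass_isZeroAt_heckeU
import Fermat.Prelude.Thm_ModularFormClass_qCoeff_heckeT
import Fermat.Prelude.Thm_ModularFormClass_qCoeff_heckeU
import Fermat.Prelude.Thm_ModularForm_isBoundedAtImInfty_heckeT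
import Fermat.Prelude.Thm_ModularForm_isBoundedAtImInfty_heckeU
import Fermat.Prelude.Thm_ModularForm_periodic_heckeT_comp_ofComplex
import Fermat.Prelude.Thm_ModularForm_periodic_heckeU_comp_ofComplex

/-! # S48 forms (F11): the Hecke operator `T_p` on `S_k(Γ₁(N))`, `p ∤ N`

`(T_p f)(τ) = p⁻¹ ∑_{j < p} f((τ + j)/p) + p^{k-1} (f ∣[k] γ)(p τ)`, `γ ∈ Γ₀(N)`, `γ 1 1 ≡ p mod N`.
Classical: the `p + 1` matrices `(1 j; 0 p)`, `γ (p 0; 0 1)` represent
`Γ₁(N) \ Γ₁(N) (1 0; 0 p) Γ₁(N)`.  (Compare the Prelude / S22 treatment for `Γ₀(N)`.)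

Implementation: `T_p f = ∑_{x ∈ ℙ¹(𝔽_p)} (f ∣ rep x) ∣ heckeRep p x`; the permutation of the cosets is the one of the
Prelude proof for `Γ₀(N)` (`heckeRep_mul`), the lower right entry of the new matrix is read off from the matrix
identity.  Holomorphy, cusps and `q`-expansion: `T_p f = U_p (f - f∣γ) + T_p^{Γ₀} (f∣γ)` and the Prelude theorems. -/

set_option autoImplicit false

namespace Fermat.Agent.S48

open UpperHalfPlane ModularForm CongruenceSubgroup ModularFormClass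
open scoped MatrixGroups ModularForm Manifold OnePoint

namespace HeckeAux

open Matrix.SpecialLinearGroup
open P2MW.S_ModularForm_heckeT_slash_eq_self_of_mem_Gamma0.ModularForm.HeckeSlashInvariance

variable {p : ℕ}

/-- lower right entry of `heckeRep p x` -/
def W (p : ℕ) (x : OnePoint (ZMod p)) : ℤ := x.elim 1 (fun _ => (p : ℤ))

/-- upper right entry of `heckeRep p x` -/
def V (p : ℕ) (x : OnePoint (ZMod p)) : ℤ := x.elim 0 (fun j => (j.val : ℤ))

/-- the "diamond weight" -/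
def w (p : ℕ) (x : OnePoint (ZMod p)) : ℤ := x.elim (p : ℤ) (fun _ => 1)

lemma w_mul_W (x : OnePoint (ZMod p)) : w p x * W p x = p := by
  induction x using OnePoint.rec <;> simp [w, W]

lemma entry_rel (hp : p ≠ 0) (g g' : SL(2, ℤ)) (x x' : OnePoint (ZMod p))
    (h : heckeRep p x * mapGL ℝ g = mapGL ℝ g' * heckeRep p x') :
    W p x * g 1 1 = g' 1 0 * V p x' + g' 1 1 * W p x' := by
  have h1 := congrArg (fun M : GL (Fin 2) ℝ => (M : Matrix (Fin 2) (Fin 2) ℝ) 1 1) h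
  induction x using OnePoint.rec <;> induction x' using OnePoint.rec <;>
    simp [hp, Matrix.mul_apply, Fin.sum_univ_two, W, V] at h1 ⊢ <;> exact_mod_cast h1

/-- representatives of the diamond operators `⟨p⟩` (at `∞`) and `⟨1⟩` -/
def rep (γ : SL(2, ℤ)) (x : OnePoint (ZMod p)) : SL(2, ℤ) := x.elim γ (fun _ => 1)

variable {N : ℕ} {γ : SL(2, ℤ)}

lemma rep_mem (hγ : γ ∈ Gamma0 N) (x : OnePoint (ZMod p)) : rep γ x ∈ Gamma0 N := by
  induction x using OnePoint.rec with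
  | infty => exact hγ
  | coe j => exact one_mem _

lemma rep_apply (hγp : ((γ 1 1 : ℤ) : ZMod N) = (p : ZMod N)) (x : OnePoint (ZMod p)) :
    (((rep γ x) 1 1 : ℤ) : ZMod N) = ((w p x : ℤ) : ZMod N) := by
  induction x using OnePoint.rec with
  | infty => simpa [rep, w] using hγp
  | coe j => simp [rep, w]

lemma mul_apply_one_one {A B : SL(2, ℤ)} (hA : A ∈ Gamma0 N) :
    (((A * B) 1 1 : ℤ) : ZMod N) = ((A 1 1 : ℤ) : ZMod N) * ((B 1 1 : ℤ) : ZMod N) := by
  have h := Gamma0_mem.mp hA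
  rw [Matrix.SpecialLinearGroup.coe_mul, Matrix.mul_apply, Fin.sum_univ_two]
  push_cast
  rw [h, zero_mul, zero_add]

variable [Fact p.Prime]

/-- the operator `T_p`, as a sum over `ℙ¹(𝔽_p)` -/
noncomputable def TT (k : ℤ) (p : ℕ) [Fact p.Prime] (γ : SL(2, ℤ)) (F : ℍ → ℂ) : ℍ → ℂ :=
  ∑ x : OnePoint (ZMod p), (F ∣[k] rep γ x) ∣[k] heckeRep p x

theorem TT_eq (k : ℤ) (γ : SL(2, ℤ)) (F : ℍ → ℂ) :
    TT k p γ F = heckeU k p F + (F ∣[k] γ) ∣[k] heckeDiagMatrix p := by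
  rw [heckeU_eq_sum_zmod, add_comm, TT]
  refine (Fintype.sum_option
    (fun x : OnePoint (ZMod p) ↦ (F ∣[k] rep γ x) ∣[k] heckeRep p x)).trans ?_
  congr 1
  refine Finset.sum_congr rfl fun j _ => ?_
  show (F ∣[k] (1 : SL(2, ℤ))) ∣[k] heckeMatrix p j.val = _
  rw [SlashAction.slash_one]

theorem TT_slash {k : ℤ} (hpN : ¬ p ∣ N) (f : CuspForm (Gamma1 N) k) (hγ : γ ∈ Gamma0 N)
    (hγp : ((γ 1 1 : ℤ) : ZMod N) = (p : ZMod N)) (g : SL(2, ℤ)) (hg : g ∈ Gamma1 N) :
    TT k p γ f ∣[k] (mapGL ℝ g) = TT k p γ f := by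
  have hp : p.Prime := Fact.out
  obtain ⟨-, hg11, hg10⟩ := (Gamma1_mem N g).mp hg
  have hcN : (N : ℤ) ∣ g 1 0 := (ZMod.intCast_zmod_eq_zero_iff_dvd _ _).mp hg10
  have hunit : IsUnit ((p : ℕ) : ZMod N) :=
    (ZMod.isUnit_iff_coprime p N).2 ((Nat.Prime.coprime_iff_not_dvd hp).2 hpN)
  rw [TT, SlashAction.sum_slash]
  calc ∑ x : OnePoint (ZMod p), ((⇑f ∣[k] rep γ x) ∣[k] heckeRep p x) ∣[k] mapGL ℝ g
      = ∑ x : OnePoint (ZMod p),
          (⇑f ∣[k] rep γ (redMatrix p g • x)) ∣[k] heckeRep p (redMatrix p g • x) := by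
        refine Finset.sum_congr rfl fun x _ ↦ ?_
        obtain ⟨g', hg', hmul⟩ := heckeRep_mul hpN g hcN x
        have hg'0 : ((g' 1 0 : ℤ) : ZMod N) = 0 := (ZMod.intCast_zmod_eq_zero_iff_dvd _ _).mpr hg'
        have hg'N : g' ∈ Gamma0 N := Gamma0_mem.mpr hg'0
        rw [← SlashAction.slash_mul, hmul, SlashAction.slash_mul]
        congr 1
        have e1 : (⇑f ∣[k] rep γ x) ∣[k] mapGL ℝ g' = ⇑f ∣[k] (rep γ x * g') := by
          rw [SlashAction.slash_mul]; rfl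
        rw [e1]
        refine slash_eq_of_congr f _ _ (mul_mem (rep_mem hγ x) hg'N) (rep_mem hγ _) ?_
        rw [mul_apply_one_one (rep_mem hγ x), rep_apply hγp, rep_apply hγp]
        have hrel := congrArg (Int.cast : ℤ → ZMod N) (entry_rel hp.ne_zero g g' x _ hmul)
        push_cast at hrel
        rw [hg11, hg'0, zero_mul, zero_add, mul_one] at hrel
        have h1 := congrArg (Int.cast : ℤ → ZMod N) (w_mul_W x)
        have h2 := congrArg (Int.cast : ℤ → ZMod N) (w_mul_W (redMatrix p g • x))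
        push_cast at h1 h2
        refine hunit.mul_right_cancel ?_
        linear_combination (-(w p x : ZMod N) * ((g' 1 1 : ℤ) : ZMod N)) * h2 +
          (w p (redMatrix p g • x) : ZMod N) * h1
          - (w p x : ZMod N) * (w p (redMatrix p g • x) : ZMod N) * hrel
    _ = ∑ x : OnePoint (ZMod p), (⇑f ∣[k] rep γ x) ∣[k] heckeRep p x :=
        Equiv.sum_comp (MulAction.toPerm (redMatrix p g))
          (fun x ↦ (⇑f ∣[k] rep γ x) ∣[k] heckeRep p x)

end HeckeAux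

open HeckeAux

theorem exists_heckeT (N : ℕ) [NeZero N] (k : ℤ) (p : ℕ) (hp : p.Prime) (hpN : ¬ p ∣ N)
    (f : CuspForm (Gamma1 N) k) (γ : SL(2, ℤ)) (hγ : γ ∈ Gamma0 N)
    (hγp : ((γ 1 1 : ℤ) : ZMod N) = (p : ZMod N)) :
    ∃ g : CuspForm (Gamma1 N) k, ∀ n : ℕ, qCoeff g n =
      qCoeff f (p * n) +
        (p : ℂ) ^ (k - 1) * (if p ∣ n then qCoeff ((⇑f : ℍ → ℂ) ∣[k] γ) (n / p) else 0) := by
  have : Fact p.Prime := ⟨hp⟩
  obtain ⟨G, hG⟩ := exists_cuspForm_slash f γ hγ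
  have e1 : TT k p γ f = heckeU k p ⇑(f - G) + heckeT k p ⇑G := by
    rw [TT_eq, ← hG, heckeT_eq_heckeU_add, FunLike.coe_sub, heckeU_sub]
    abel
  have hΓ : (1 : ℝ) ∈ (Gamma1 N : Subgroup (GL (Fin 2) ℝ)).strictPeriods := by
    simp [strictPeriods_Gamma1]
  let g : CuspForm (Gamma1 N) k :=
    { toFun := TT k p γ f
      slash_action_eq' := fun δ hδ => by
        obtain ⟨d, hd, rfl⟩ := hδ
        exact TT_slash hpN f hγ hγp d hd
      holo' := by
        show MDiff (TT k p γ f)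
        rw [e1]
        exact (mdifferentiable_heckeU (f - G).holo' k p).add (mdifferentiable_heckeT G.holo' k p)
      zero_at_cusps' := fun {c} hc => by
        show c.IsZeroAt (TT k p γ f) k
        rw [e1]
        exact (CuspFormClass.isZeroAt_heckeU (f - G) p hc).add (CuspFormClass.isZeroAt_heckeT G p hc) }
  refine ⟨g, fun n => ?_⟩
  have hA : AnalyticAt ℂ (cuspFunction 1 (heckeU k p ⇑(f - G))) 0 :=
    analyticAt_cuspFunction_zero one_pos
      (periodic_heckeU_comp_ofComplex (SlashInvariantFormClass.periodic_comp_ofComplex (f - G) hΓ) k p)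
      (mdifferentiable_heckeU (f - G).holo' k p)
      (isBoundedAtImInfty_heckeU (bdd_at_infty (f - G)) k p)
  have hB : AnalyticAt ℂ (cuspFunction 1 (heckeT k p ⇑G)) 0 :=
    analyticAt_cuspFunction_zero one_pos
      (periodic_heckeT_comp_ofComplex (SlashInvariantFormClass.periodic_comp_ofComplex G hΓ) k p)
      (mdifferentiable_heckeT G.holo' k p)
      (isBoundedAtImInfty_heckeT (bdd_at_infty G) k p)
  have h1 : qCoeff g n = qCoeff (heckeU k p ⇑(f - G)) n + qCoeff (heckeT k p ⇑G) n := by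
    show (qExpansion 1 (TT k p γ f)).coeff n = _
    rw [e1, qExpansion_add hA hB, map_add]
    rfl
  have h2 : ∀ m, qCoeff ⇑(f - G) m = qCoeff f m - qCoeff G m := by
    intro m
    show (qExpansion 1 ⇑(f - G)).coeff m = _
    rw [FunLike.coe_sub, ModularForm.qExpansion_sub one_pos hΓ f G, map_sub]
    rfl
  rw [h1, ModularFormClass.qCoeff_heckeU (f - G) hΓ hp.ne_zero, ModularFormClass.qCoeff_heckeT G hΓ hp.ne_zero,
    coeffHeckeU_apply, coeffHeckeT_apply, h2, ← hG, mul_comm n p]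
  split_ifs <;> ring

end Fermat.Agent.S48
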