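import Fermat.Agent.S48.Forms.Hecke
import Fermat.Agent.S48.Forms.FinDim
import Fermat.Agent.Common.E4Level

/-! # S48 forms (F12): `g(pτ)` of level `N` prime to `p` forces `g = 0`

`W = S₁(Γ₁ N)` (finite dimensional), `W' = {g ∈ W | V_p g ∈ W}` (a subspace).
(a) `W'` is stable under the diamond operators: for `γ ∈ Γ₀(N p)`,
`(V_p g) ∣ γ = V_p (g ∣ γ')`, `γ' = (a, p b; c/p, d)` (`exists_mem_Gamma0_of_coprime`).
(b) for `g ∈ W'`, `G = V_p g`: `T_p G - g = V_p (⟨p⟩ G)`, so `⟨p⟩ G ∈ W'`, so `G ∈ W'` by (a).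
(c) (as implemented) iterate (b): `V_p^j g ∈ W` for all `j`; the order of vanishing of a nonzero element of the
finite dimensional space `W` is bounded (`exists_bound_order`), and `ord (V_p^j g) ≥ p^j`: so `g = 0`. -/

set_option autoImplicit false

namespace Fermat.Agent.S48

open UpperHalfPlane ModularForm CongruenceSubgroup ModularFormClass
open scoped MatrixGroups ModularForm Manifold

local notation "𝕢" => Function.Periodic.qParam

/-- the coefficient relation `G = V_p g`. -/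
def IsV (p : ℕ) (G g : ℍ → ℂ) : Prop :=
  ∀ n : ℕ, qCoeff G n = if p ∣ n then qCoeff g (n / p) else 0

variable {N : ℕ} {k : ℤ}

/-- the series `∑ [p ∣ n] a_{n/p}(g) q^n` represents `g(pτ)`. -/
theorem hasSum_V [NeZero N] {p : ℕ} (hp : 0 < p) (g : CuspForm (Gamma1 N) k) (τ : ℍ) :
    HasSum (fun n : ℕ => (if p ∣ n then qCoeff g (n / p) else 0) • 𝕢 1 (τ : ℂ) ^ n)
      (g (heckeDiagMatrix p • τ)) := by
  have : NeZero p := ⟨hp.ne'⟩
  have h := ModularForm.hasSum_qExpansion (f := g) one_pos (one_mem_strictPeriods_Gamma1 N)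
    (heckeDiagMatrix p • τ)
  have hinj : Function.Injective (fun m : ℕ => p * m) := fun a b hab =>
    Nat.eq_of_mul_eq_mul_left hp hab
  refine (hinj.hasSum_iff ?_).mp ?_
  · intro x hx
    have : ¬ p ∣ x := fun ⟨m, hm⟩ => hx ⟨m, hm.symm⟩
    simp [this]
  · convert h using 2 with m
    simp only [Function.comp_apply, dvd_mul_right, if_true, Nat.mul_div_cancel_left _ hp,
      smul_eq_mul, Common.qParam_heckeDiag, ← pow_mul]
    rfl

theorem IsV.apply [NeZero N] {p : ℕ} (hp : 0 < p) {G g : CuspForm (Gamma1 N) k} (h : IsV p G g)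
    (τ : ℍ) : G τ = g (heckeDiagMatrix p • τ) := by
  have h1 := ModularForm.hasSum_qExpansion (f := G) one_pos (one_mem_strictPeriods_Gamma1 N) τ
  have h2 := hasSum_V hp g τ
  refine h1.unique ?_
  convert h2 using 2 with n
  rw [← h n, smul_eq_mul]
  rfl

theorem isV_of_apply [NeZero N] {p : ℕ} (hp : 0 < p) {G g : CuspForm (Gamma1 N) k}
    (h : ∀ τ : ℍ, G τ = g (heckeDiagMatrix p • τ)) : IsV p G g := by
  intro n
  refine (ModularFormClass.qExpansion_coeff_unique (f := G)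
    (c := fun n => if p ∣ n then qCoeff g (n / p) else 0) one_pos
    (one_mem_strictPeriods_Gamma1 N) (fun τ => ?_) n).symm
  rw [h τ]
  exact hasSum_V hp g τ

/-- in a finite dimensional space of forms the order of vanishing is bounded. -/
theorem exists_bound_order [NeZero N] (hfin : FiniteDimensional ℂ (CuspForm (Gamma1 N) k)) :
    ∃ B : ℕ, ∀ f : CuspForm (Gamma1 N) k, (∀ n < B, qCoeff f n = 0) → f = 0 := by
  let K : ℕ →o (Submodule ℂ (CuspForm (Gamma1 N) k))ᵒᵈ :=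
    { toFun := fun B => OrderDual.toDual (⨅ n : Fin B, LinearMap.ker (coeffL N k n))
      monotone' := by
        intro B B' hB
        show (⨅ n : Fin B', LinearMap.ker (coeffL N k n)) ≤
          ⨅ n : Fin B, LinearMap.ker (coeffL N k n)
        refine le_iInf fun n => ?_
        exact iInf_le (fun n : Fin B' => LinearMap.ker (coeffL N k n)) ⟨n, n.2.trans_le hB⟩ }
  obtain ⟨B, hB⟩ := IsArtinian.monotone_stabilizes K
  refine ⟨B, fun f hf => eq_zero_of_qCoeff f fun m => ?_⟩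
  have hmem : f ∈ (⨅ n : Fin B, LinearMap.ker (coeffL N k n)) := by
    rw [Submodule.mem_iInf]
    intro n
    exact hf n n.2
  by_cases hm : m < B
  · exact hf m hm
  · have h1 : (⨅ n : Fin B, LinearMap.ker (coeffL N k n)) =
        ⨅ n : Fin (m + 1), LinearMap.ker (coeffL N k n) := hB (m + 1) (by omega)
    rw [h1, Submodule.mem_iInf] at hmem
    exact hmem ⟨m, Nat.lt_succ_self m⟩


open Matrix.SpecialLinearGroup in
/-- `diag(p,1) γ = γ' diag(p,1)` for `γ ∈ Γ₀(N p)`, with `γ' ∈ Γ₀(N)` and the same lower right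
entry. -/
theorem heckeDiag_mul_Gamma0_mul (N p : ℕ) (hp : 0 < p) (γ : SL(2, ℤ)) (hγ : γ ∈ Gamma0 (N * p)) :
    ∃ γ' : SL(2, ℤ), γ' ∈ Gamma0 N ∧ γ' 1 1 = γ 1 1 ∧
      heckeDiagMatrix p * mapGL ℝ γ = mapGL ℝ γ' * heckeDiagMatrix p := by
  obtain ⟨e, he⟩ : ((N * p : ℕ) : ℤ) ∣ γ 1 0 :=
    (ZMod.intCast_zmod_eq_zero_iff_dvd _ _).mp (Gamma0_mem.mp hγ)
  have hdet := Common.det_eq' γ
  obtain ⟨γ', h00, h01, h10, h11⟩ := Common.exists_SL2 (γ 0 0) (p * γ 0 1) (N * e) (γ 1 1)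
    (by rw [he] at hdet; push_cast at hdet; linear_combination hdet)
  refine ⟨γ', ?_, h11, ?_⟩
  · rw [Gamma0_mem, h10]
    simp
  have her : ((γ 1 0 : ℤ) : ℝ) = N * p * e := by rw [he]; push_cast; ring
  ext i j
  fin_cases i <;> fin_cases j <;>
    simp only [Fin.zero_eta, Fin.mk_one, Fin.isValue, Units.val_mul, Matrix.mul_apply,
      Fin.sum_univ_two, val_heckeDiagMatrix hp.ne', Common.mapGL_apply',
      h00, h01, h10, h11, Matrix.of_apply, Matrix.cons_val', Matrix.cons_val_zero,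
      Matrix.cons_val_one, Matrix.cons_val_fin_one] <;> push_cast
  · ring
  · ring
  · rw [her]; ring
  · ring

/-- an inverse of `p` modulo `N` which is prime to `N p`. -/
theorem exists_inv_coprime (N p : ℕ) (h : Nat.Coprime p N) :
    ∃ d : ℤ, IsCoprime d ((N : ℤ) * (p : ℤ)) ∧ ((p : ZMod N) * (d : ZMod N) = 1) := by
  obtain ⟨u, v, huv⟩ := Nat.isCoprime_iff_coprime.2 h
  refine ⟨1 - u * p + u ^ 2 * p, IsCoprime.mul_right ⟨p, 2 * v - v * p - v ^ 2 * N, ?_⟩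
    ⟨1, -(u * (u - 1)), by ring⟩, ?_⟩
  · have h1 : u * p = 1 - v * N := by linear_combination huv
    have : p * (1 - u * p + u ^ 2 * p) = p - (u * p) * p + (u * p) ^ 2 := by ring
    rw [this, h1]
    ring
  · have h1 : ((u : ZMod N)) * (p : ZMod N) = 1 := by
      have := congrArg (Int.cast : ℤ → ZMod N) huv
      push_cast at this
      simpa using this
    push_cast
    linear_combination ((u : ZMod N) * (p : ZMod N) + 1 - (p : ZMod N)) * h1


theorem coe_eq_slash_of_isV [NeZero N] {p : ℕ} (hp : 0 < p) {G g : CuspForm (Gamma1 N) 1}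
    (h : IsV p G g) : (⇑G : ℍ → ℂ) = ⇑g ∣[(1 : ℤ)] heckeDiagMatrix p := by
  funext τ
  rw [h.apply hp τ, slash_heckeDiagMatrix_apply 1 hp.ne']
  simp

theorem isV_of_coe_eq_slash [NeZero N] {p : ℕ} (hp : 0 < p) {G g : CuspForm (Gamma1 N) 1}
    (h : (⇑G : ℍ → ℂ) = ⇑g ∣[(1 : ℤ)] heckeDiagMatrix p) : IsV p G g := by
  refine isV_of_apply hp fun τ => ?_
  rw [h, slash_heckeDiagMatrix_apply 1 hp.ne']
  simp

open Matrix.SpecialLinearGroup in
/-- **key step**: if `V_p g` has level `N`, so has `V_p (V_p g)`. -/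
theorem IsV.step [NeZero N] {p : ℕ} (hp : p.Prime) (hpN : ¬ p ∣ N) {G g : CuspForm (Gamma1 N) 1}
    (h : IsV p G g) : ∃ G₂ : CuspForm (Gamma1 N) 1, IsV p G₂ G := by
  have hcop : Nat.Coprime p N := (Nat.Prime.coprime_iff_not_dvd hp).2 hpN
  -- the diamond operator `⟨p⟩`
  obtain ⟨γ, hγ, hγp⟩ := exists_mem_Gamma0_of_coprime N 1 (p : ℤ)
    (by simpa using Nat.isCoprime_iff_coprime.2 hcop)
  rw [mul_one] at hγ
  have hγp' : ((γ 1 1 : ℤ) : ZMod N) = (p : ZMod N) := by rw [hγp]; simp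
  obtain ⟨T, hT⟩ := exists_heckeT N 1 p hp hpN G γ hγ hγp'
  obtain ⟨G', hG'⟩ := exists_cuspForm_slash G γ hγ
  -- `H = T_p G - g = V_p (⟨p⟩ G)`
  have hH : IsV p (T - g : CuspForm (Gamma1 N) 1) G' := by
    intro n
    have h1 : qCoeff (T - g : CuspForm (Gamma1 N) 1) n = qCoeff T n - qCoeff g n :=
      map_sub (coeffL N 1 n) T g
    have h2 : qCoeff G (p * n) = qCoeff g n := by
      rw [h (p * n), if_pos (dvd_mul_right _ _), Nat.mul_div_cancel_left _ hp.pos]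
    rw [h1, hT n, h2, hG']
    simp
  -- the inverse diamond operator
  obtain ⟨d, hd, hpd⟩ := exists_inv_coprime N p hcop
  obtain ⟨γ₂, hγ₂, hγ₂d⟩ := exists_mem_Gamma0_of_coprime N p d hd
  obtain ⟨γ₂', hγ₂', hγ₂'d, hcomm⟩ := heckeDiag_mul_Gamma0_mul N p hp.pos γ₂ hγ₂
  have hγ₂N : γ₂ ∈ Gamma0 N := by
    rw [Gamma0_mem] at hγ₂ ⊢
    rw [ZMod.intCast_zmod_eq_zero_iff_dvd] at hγ₂ ⊢
    exact (Dvd.intro _ (by push_cast; rfl)).trans hγ₂
  obtain ⟨G₂, hG₂⟩ := exists_cuspForm_slash (T - g) γ₂ hγ₂N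
  refine ⟨G₂, isV_of_coe_eq_slash hp.pos ?_⟩
  have h3 : (⇑G : ℍ → ℂ) ∣[(1 : ℤ)] (γ * γ₂') = ⇑G := by
    have := slash_eq_of_congr G (γ * γ₂') 1 (mul_mem hγ hγ₂') (one_mem _) (by
      have hγ10 : ((γ 1 0 : ℤ) : ZMod N) = 0 := Gamma0_mem.1 hγ
      rw [Matrix.SpecialLinearGroup.coe_mul, Matrix.mul_apply, Fin.sum_univ_two]
      push_cast
      rw [hγ10, hγp', hγ₂'d, hγ₂d, hpd]
      simp)
    rw [this, SlashAction.slash_one]
  rw [hG₂, coe_eq_slash_of_isV hp.pos hH, hG']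
  change ((⇑G ∣[(1 : ℤ)] mapGL ℝ γ) ∣[(1 : ℤ)] heckeDiagMatrix p) ∣[(1 : ℤ)] mapGL ℝ γ₂ = _
  rw [← SlashAction.slash_mul, ← SlashAction.slash_mul, hcomm, ← mul_assoc,
    SlashAction.slash_mul, ← map_mul]
  congr 1


/-- iteration of the key step. -/
theorem IsV.iterate [NeZero N] {p : ℕ} (hp : p.Prime) (hpN : ¬ p ∣ N) {G g : CuspForm (Gamma1 N) 1}
    (h : IsV p G g) (j : ℕ) : ∃ F F' : CuspForm (Gamma1 N) 1, IsV p F' F ∧
      ∀ n : ℕ, qCoeff F n = if p ^ j ∣ n then qCoeff g (n / p ^ j) else 0 := by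
  induction j with
  | zero => exact ⟨g, G, h, fun n => by simp⟩
  | succ j ih =>
    obtain ⟨F, F', hF, hc⟩ := ih
    obtain ⟨F'', hF''⟩ := hF.step hp hpN
    refine ⟨F', F'', hF'', fun n => ?_⟩
    rw [hF n]
    by_cases h1 : p ∣ n
    · obtain ⟨m, rfl⟩ := h1
      rw [if_pos (dvd_mul_right _ _), Nat.mul_div_cancel_left _ hp.pos, hc m, pow_succ',
        Nat.mul_div_mul_left _ _ hp.pos]
      simp only [Nat.mul_dvd_mul_iff_left hp.pos]
    · rw [if_neg h1, if_neg]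
      exact fun h2 => h1 ((dvd_pow_self p (Nat.succ_ne_zero j)).trans h2)

theorem eq_zero_of_V (N : ℕ) [NeZero N] (p : ℕ) (hp : p.Prime) (hpN : ¬ p ∣ N)
    (g G : CuspForm (Gamma1 N) 1)
    (h : ∀ n : ℕ, qCoeff G n = if p ∣ n then qCoeff g (n / p) else 0) : g = 0 := by
  obtain ⟨B, hB⟩ := exists_bound_order (finiteDimensional_S1 N)
  obtain ⟨F, -, -, hF⟩ := IsV.iterate hp hpN (G := G) (g := g) h B
  have hlt : B < p ^ B := Nat.lt_pow_self hp.one_lt
  have hF0 : F = 0 := by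
    refine hB F fun n hn => ?_
    rcases Nat.eq_zero_or_pos n with rfl | hn0
    · exact qCoeff_zero F
    · rw [hF n, if_neg]
      exact fun hd => absurd (Nat.le_of_dvd hn0 hd) (by omega)
  refine eq_zero_of_qCoeff g fun m => ?_
  have h1 := hF (p ^ B * m)
  rw [if_pos (dvd_mul_right _ _), Nat.mul_div_cancel_left _ (pow_pos hp.pos B), hF0] at h1
  rw [← h1]
  exact map_zero (coeffL N 1 (p ^ B * m))

end Fermat.Agent.S48
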